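/-
S55 / block NIT / second inequality (SI): shared definitions.
Everything is phrased with a number field `K`, its finite places `HeightOneSpectrum (𝓞 K)`,
and SUBGROUPS OF `Kˣ` (no local fields): `pow v` = global elements that are local `p`-th powers
at `v`, `nrm b v` = global elements that are local norms at `v` from `K(b^(1/p))`.
-/
import Mathlib

set_option autoImplicit false

namespace Fermat.Agent.S55.NIT.SI

open IsDedekindDomain NumberField

noncomputable section

/-- The finite places of a number field. -/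
abbrev Pl (K : Type*) [Field K] [NumberField K] := HeightOneSpectrum (𝓞 K)

variable (p : ℕ) (K : Type*) [Field K] [NumberField K]

/-- Global elements which are units at `v`. -/
def Uv (v : Pl K) : Subgroup Kˣ where
  carrier := {x | v.valuation K (x : K) = 1}
  one_mem' := by simp
  mul_mem' := by
    intro x y hx hy
    simp only [Set.mem_ofPred_eq] at hx hy ⊢
    rw [Units.val_mul, map_mul, hx, hy, one_mul]
  inv_mem' := by
    intro x hx
    simp only [Set.mem_ofPred_eq] at hx ⊢
    rw [Units.val_inv_eq_inv_val, map_inv₀, hx, inv_one]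

theorem mem_Uv {v : Pl K} {x : Kˣ} : x ∈ Uv K v ↔ v.valuation K (x : K) = 1 := Iff.rfl

/-- The `T`-units. -/
abbrev KS (T : Finset (Pl K)) : Subgroup Kˣ := (T : Set (Pl K)).unit K

open Classical in
/-- Union of two finite sets of places (classical decidability hidden once and for all). -/
def uni (S W : Finset (Pl K)) : Finset (Pl K) := S ∪ W

variable {K} in
theorem mem_uni {S W : Finset (Pl K)} {v : Pl K} : v ∈ uni K S W ↔ v ∈ S ∨ v ∈ W := by
  classical
  simp [uni]

variable {K} in
theorem card_uni {S W : Finset (Pl K)} (h : Disjoint S W) :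
    (uni K S W).card = S.card + W.card := by
  classical
  simp only [uni]
  exact Finset.card_union_of_disjoint h

/-- `v` lies over `p`. -/
def Over (v : Pl K) : Prop := (p : 𝓞 K) ∈ v.asIdeal

/-- Abstract local Kummer data of exponent `p` for the number field `K`. -/
structure LocData where
  /-- global elements that are local `p`-th powers at `v` -/
  pow : Pl K → Subgroup Kˣ
  /-- global elements that are local norms at `v` from `K(b^(1/p))` -/
  nrm : Kˣ → Pl K → Subgroup Kˣ
  pow_mem : ∀ (v : Pl K) (x : Kˣ), x ^ p ∈ pow v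
  val_of_mem_pow : ∀ (v : Pl K) (x : Kˣ), x ∈ pow v →
    ∃ y : Kˣ, v.valuation K (x : K) = v.valuation K (y : K) ^ p
  pow_le_nrm : ∀ (b : Kˣ) (v : Pl K), pow v ≤ nrm b v
  nrm_eq_top : ∀ (b : Kˣ) (v : Pl K), b ∈ pow v → nrm b v = ⊤
  unit_le_nrm : ∀ (b : Kˣ) (v : Pl K), ¬ Over p K v → b ∈ Uv K v → Uv K v ≤ nrm b v
  index_pow : ∀ v : Pl K, (pow v).index =
    p ^ 2 * Ideal.absNorm (v.maxPowDividing (Ideal.span {(p : 𝓞 K)}))
  tame : ∀ v : Pl K, ¬ Over p K v → ∀ x ∈ Uv K v,
    (x ∈ pow v ↔ ∃ y : Kˣ, v.valuation K ((x : K) - (y : K) ^ p) < 1)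

/-- The target `∏_{v ∈ S} Kˣ / H v` of the diagonal map. -/
abbrev Tgt (H : Pl K → Subgroup Kˣ) (S : Finset (Pl K)) : Type _ := ∀ v : S, Kˣ ⧸ H v

/-- The diagonal map `Kˣ → ∏_{v ∈ S} Kˣ / H v`. -/
def diag (H : Pl K → Subgroup Kˣ) (S : Finset (Pl K)) : Kˣ →* Tgt K H S where
  toFun x := fun v => QuotientGroup.mk' (H v) x
  map_one' := by ext v; simp
  map_mul' x y := by ext v; simp

@[simp] theorem diag_apply (H : Pl K → Subgroup Kˣ) (S : Finset (Pl K)) (x : Kˣ) (v : S) :
    diag K H S x v = QuotientGroup.mk' (H v) x := rfl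

/-- The image of a subgroup `Γ ≤ Kˣ` in `∏_{v ∈ S} Kˣ / H v`. -/
def img (H : Pl K → Subgroup Kˣ) (S : Finset (Pl K)) (Γ : Subgroup Kˣ) : Subgroup (Tgt K H S) :=
  Subgroup.map (diag K H S) Γ

/-- `Cl_S(K) = 1`, in the only form used here: every prime outside `S` has a generator
up to `S`. -/
def ClTriv (S : Finset (Pl K)) : Prop :=
  ∀ w : Pl K, w ∉ S → ∃ ϖ : Kˣ, w.valuation K (ϖ : K) = WithZero.exp (-1 : ℤ) ∧
    ∀ v : Pl K, v ∉ S → v ≠ w → v.valuation K (ϖ : K) = 1

/-- The consequence of the first inequality used in the proof of the second one. -/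
def FirstIneq (D : LocData p K) : Prop :=
  ∀ y : Kˣ, (∀ z : Kˣ, z ^ p ≠ y) → ∀ T : Finset (Pl K), (∀ v : Pl K, Over p K v → v ∈ T) →
    y ∈ KS K T → ClTriv K T → img K (D.nrm y) T (KS K T) ≠ ⊤

/-- The consequence of the Dirichlet `S`-unit theorem used here (`μ_p ⊆ K`, `p` odd). -/
def SUnitIndex : Prop :=
  ∀ T : Finset (Pl K), ((powMonoidHom p : ↥(KS K T) →* ↥(KS K T)).range).index =
    p ^ (T.card + InfinitePlace.nrComplexPlaces K)

/-- `⟨a⟩ · (K_S)^p` as a subgroup of `Kˣ`. -/
def lineSub (S : Finset (Pl K)) (a : Kˣ) : Subgroup Kˣ :=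
  Subgroup.zpowers a ⊔ (KS K S).map (powMonoidHom p)

/-- Elements that are local norms from `K(a^(1/p))` at all places outside `S`. -/
def GamS (D : LocData p K) (a : Kˣ) (S : Finset (Pl K)) : Subgroup Kˣ :=
  ⨅ v : {v : Pl K // v ∉ S}, D.nrm a v

end

end Fermat.Agent.S55.NIT.SI
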