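/-
S55 / NIT / SI, node SI-C0: a Galois number field containing `K` and two `p`-th roots.
-/
import Fermat.Agent.S55.NIT.SI.Defs

set_option autoImplicit false

namespace Fermat.Agent.S55.NIT.SI

open IsDedekindDomain NumberField

universe u

variable {p : ℕ} {K : Type u} [Field K] [NumberField K]

/-- SI-C0. A Galois number field containing `K` and `p`-th roots. -/
theorem exists_galois_hull (hp : 0 < p) (a u : K) :
    ∃ (E : Type u) (_ : Field E) (_ : NumberField E) (_ : IsGalois ℚ E) (_ : Algebra K E)
      (α β : E), α ^ p = algebraMap K E a ∧ β ^ p = algebraMap K E u := by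
  let Ω := AlgebraicClosure K
  obtain ⟨α, hα⟩ := IsAlgClosed.exists_pow_nat_eq (algebraMap K Ω a) hp
  obtain ⟨β, hβ⟩ := IsAlgClosed.exists_pow_nat_eq (algebraMap K Ω u) hp
  have hclo : IsAlgClosure ℚ Ω := IsAlgClosure.ofAlgebraic ℚ K Ω
  have hnorm : Normal ℚ Ω := IsAlgClosure.normal ℚ Ω
  let L1 : IntermediateField K Ω := IntermediateField.adjoin K {α, β}
  have hfin1 : FiniteDimensional K L1 :=
    IntermediateField.finiteDimensional_adjoin (fun x _ => (Algebra.IsAlgebraic.isAlgebraic x).isIntegral)
  let L0 : IntermediateField ℚ Ω := L1.restrictScalars ℚ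
  have hfin0 : FiniteDimensional ℚ L0 := by
    have : FiniteDimensional ℚ L1 := FiniteDimensional.trans ℚ K L1
    exact this
  let E : IntermediateField ℚ Ω := IntermediateField.normalClosure ℚ L0 Ω
  have hfinE : FiniteDimensional ℚ E := normalClosure.is_finiteDimensional ℚ L0 Ω
  have hnormE : Normal ℚ E := normalClosure.normal ℚ L0 Ω
  have hLE : L0 ≤ E := L0.le_normalClosure
  have hgal : IsGalois ℚ E := ⟨⟩
  have hK : ∀ x : K, algebraMap K Ω x ∈ E := fun x => hLE (L1.algebraMap_mem x)
  have hαE : α ∈ E := hLE (IntermediateField.subset_adjoin K _ (by simp))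
  have hβE : β ∈ E := hLE (IntermediateField.subset_adjoin K _ (by simp))
  let φ : K →+* E := (algebraMap K Ω).codRestrict E.toSubfield.toSubring hK
  refine ⟨E, inferInstance, ?_, ?_, φ.toAlgebra, ⟨α, hαE⟩, ⟨β, hβE⟩, ?_, ?_⟩
  · exact { to_charZero := inferInstance, to_finiteDimensional := by convert hfinE }
  · convert hgal
  · exact Subtype.ext hα
  · exact Subtype.ext hβ

end Fermat.Agent.S55.NIT.SI
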