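/-
S55 / NIT / SI, node SI-M: `[K_T : K_T^p] = p^(|T| + r₂)` from the structure of the `T`-units.
-/
import Fermat.Agent.S55.NIT.SI.Defs
import Fermat.Agent.S55.NIT.FI.SUnit
import Fermat.Agent.S55.NIT.FI.PhiFG

set_option autoImplicit false

namespace Fermat.Agent.S55.NIT.SI

open IsDedekindDomain NumberField

universe u

section Abstract

/-- the index of `p M` in `M`. -/
noncomputable def nsmulIndex (p : ℕ) (M : Type*) [AddCommGroup M] : ℕ :=
  (nsmulAddMonoidHom p : M →+ M).range.index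

theorem nsmulIndex_congr (p : ℕ) {M N : Type*} [AddCommGroup M] [AddCommGroup N] (e : M ≃+ N) :
    nsmulIndex p M = nsmulIndex p N := by
  unfold nsmulIndex
  rw [← AddSubgroup.index_map_equiv (nsmulAddMonoidHom p : M →+ M).range e]
  congr 1
  ext y
  simp only [AddSubgroup.mem_map, AddMonoidHom.mem_range, nsmulAddMonoidHom_apply,
    exists_exists_eq_and]
  constructor
  · rintro ⟨x, rfl⟩
    exact ⟨e x, by simp⟩
  · rintro ⟨x, rfl⟩
    exact ⟨e.symm x, by simp⟩

theorem nsmulIndex_prod (p : ℕ) (M N : Type*) [AddCommGroup M] [AddCommGroup N] :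
    nsmulIndex p (M × N) = nsmulIndex p M * nsmulIndex p N := by
  unfold nsmulIndex
  rw [← AddSubgroup.index_prod]
  congr 1
  ext ⟨a, b⟩
  simp only [AddSubgroup.mem_prod, AddMonoidHom.mem_range, nsmulAddMonoidHom_apply]
  constructor
  · rintro ⟨⟨x, y⟩, h⟩
    rw [Prod.smul_mk, Prod.mk.injEq] at h
    exact ⟨⟨x, h.1⟩, ⟨y, h.2⟩⟩
  · rintro ⟨⟨x, rfl⟩, ⟨y, rfl⟩⟩
    exact ⟨(x, y), rfl⟩

theorem nsmulIndex_int (p : ℕ) : nsmulIndex p ℤ = p := by
  unfold nsmulIndex
  have h : (nsmulAddMonoidHom p : ℤ →+ ℤ).range = AddSubgroup.zmultiples (p : ℤ) := by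
    ext y
    simp only [AddMonoidHom.mem_range, nsmulAddMonoidHom_apply, AddSubgroup.mem_zmultiples_iff,
      smul_eq_mul, nsmul_eq_mul]
    constructor
    · rintro ⟨x, rfl⟩
      exact ⟨x, mul_comm _ _⟩
    · rintro ⟨x, rfl⟩
      exact ⟨x, mul_comm _ _⟩
  rw [h, Int.index_zmultiples, Int.natAbs_natCast]

theorem nsmulIndex_pi_int (p r : ℕ) : nsmulIndex p (Fin r → ℤ) = p ^ r := by
  have h : (nsmulAddMonoidHom p : (Fin r → ℤ) →+ (Fin r → ℤ)).range
      = AddSubgroup.pi Set.univ (fun _ : Fin r => (nsmulAddMonoidHom p : ℤ →+ ℤ).range) := by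
    ext y
    simp only [AddMonoidHom.mem_range, nsmulAddMonoidHom_apply, AddSubgroup.mem_pi, Set.mem_univ,
      forall_true_left]
    constructor
    · rintro ⟨x, rfl⟩ i
      exact ⟨x i, rfl⟩
    · intro hy
      choose x hx using hy
      exact ⟨x, funext hx⟩
  have h2 := nsmulIndex_int p
  unfold nsmulIndex at h2 ⊢
  rw [h, AddSubgroup.index_pi]
  simp [h2]

theorem index_range_pow_eq_nsmulIndex (p : ℕ) (G : Type*) [CommGroup G] :
    (powMonoidHom p : G →* G).range.index = nsmulIndex p (Additive G) := by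
  unfold nsmulIndex
  rw [← Subgroup.index_toAddSubgroup]
  congr 1

end Abstract

variable {p : ℕ} {K : Type u} [Field K] [NumberField K]

/-- the group of roots of unity of `K` has order divisible by `p`. -/
theorem dvd_card_torsion (hp : p.Prime) {ζ : K} (hζ : IsPrimitiveRoot ζ p) :
    p ∣ Nat.card (Units.torsion K) := by
  have : NeZero p := ⟨hp.ne_zero⟩
  have h1 : IsPrimitiveRoot hζ.toInteger p := hζ.toInteger_isPrimitiveRoot
  have hu : IsUnit hζ.toInteger := h1.isUnit hp.ne_zero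
  have h2 : IsPrimitiveRoot hu.unit p := by
    rw [← IsPrimitiveRoot.coe_units_iff]
    exact h1
  have hmem : hu.unit ∈ Units.torsion K := by
    rw [Units.torsion, CommGroup.mem_torsion, isOfFinOrder_iff_pow_eq_one]
    exact ⟨p, hp.pos, h2.pow_eq_one⟩
  have h3 : orderOf (⟨hu.unit, hmem⟩ : Units.torsion K) = p := by
    rw [← Subgroup.orderOf_coe]
    exact h2.eq_orderOf.symm
  rw [← h3]
  exact orderOf_dvd_natCard _

theorem rank_add_one (hp : p.Prime) (hp2 : p ≠ 2) {ζ : K} (hζ : IsPrimitiveRoot ζ p) :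
    Units.rank K + 1 = InfinitePlace.nrComplexPlaces K := by
  have h2 : 2 < p := lt_of_le_of_ne hp.two_le (Ne.symm hp2)
  have h1 := NumberField.InfinitePlace.IsPrimitiveRoot.nrRealPlaces_eq_zero_of_two_lt h2 hζ
  have h3 := InfinitePlace.card_eq_nrRealPlaces_add_nrComplexPlaces K
  have h4 : 0 < Fintype.card (InfinitePlace K) := Fintype.card_pos
  rw [Units.rank]
  omega

/-- SI-M. From the Dirichlet `S`-unit theorem. -/
theorem sUnitIndex_of_structure (hp : p.Prime) (hp2 : p ≠ 2) {ζ : K} (hζ : IsPrimitiveRoot ζ p)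
    (h : ∀ T : Finset (Pl K), Nonempty (Additive ↥(KS K T) ≃+
      Additive ↥(Units.torsion K) × (Fin (Units.rank K + T.card) → ℤ))) :
    SUnitIndex p K := by
  intro T
  obtain ⟨e⟩ := h T
  rw [index_range_pow_eq_nsmulIndex, nsmulIndex_congr p e, nsmulIndex_prod, nsmulIndex_pi_int,
    ← index_range_pow_eq_nsmulIndex, IsCyclic.index_powMonoidHom_range,
    Nat.gcd_eq_right (dvd_card_torsion hp hζ), ← rank_add_one hp hp2 hζ, ← pow_succ']
  congr 1
  omega

/-- the roots of unity are `T`-units. -/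
theorem mem_KS_of_pow_eq_one (T : Finset (Pl K)) {n : ℕ} (hn : n ≠ 0) {x : Kˣ} (hx : x ^ n = 1) :
    x ∈ KS K T := by
  intro v _
  have h1 : (v.valuation K (x : K)) ^ n = 1 := by
    rw [← map_pow, ← Units.val_pow_eq_pow_val, hx, Units.val_one, map_one]
  exact (pow_eq_one_iff.mp h1).resolve_right hn

/-- the `p`-torsion of the `T`-units has `p` elements. -/
theorem card_ker_zsmul (hp : p.Prime) {ζ : K} (hζ : IsPrimitiveRoot ζ p) (T : Finset (Pl K)) :
    Nat.card (zsmulAddGroupHom (p : ℤ) : Additive ↥(KS K T) →+ Additive ↥(KS K T)).ker = p := by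
  have : NeZero p := ⟨hp.ne_zero⟩
  refine Eq.trans ?_ hζ.card_rootsOfUnity
  have hmem : ∀ x : (zsmulAddGroupHom (p : ℤ) : Additive ↥(KS K T) →+ Additive ↥(KS K T)).ker,
      ((Additive.toMul x.1 : ↥(KS K T)) : Kˣ) ∈ rootsOfUnity p K := by
    intro x
    have h1 : (p : ℤ) • x.1 = 0 := x.2
    rw [natCast_zsmul] at h1
    have h2 : (Additive.toMul x.1 : ↥(KS K T)) ^ p = 1 := by
      have := congrArg Additive.toMul h1
      rwa [toMul_nsmul, toMul_zero] at this
    rw [mem_rootsOfUnity, ← Subgroup.coe_pow, h2, Subgroup.coe_one]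
  refine Nat.card_eq_of_bijective (fun x => ⟨_, hmem x⟩) ⟨?_, ?_⟩
  · intro x y hxy
    have h1 : ((Additive.toMul x.1 : ↥(KS K T)) : Kˣ) = ((Additive.toMul y.1 : ↥(KS K T)) : Kˣ) :=
      congrArg (fun z : rootsOfUnity p K => (z : Kˣ)) hxy
    apply Subtype.ext
    exact Additive.toMul.injective (Subtype.ext h1)
  · rintro ⟨ξ, hξ⟩
    have hξ' : ξ ^ p = 1 := (mem_rootsOfUnity _ _).mp hξ
    refine ⟨⟨Additive.ofMul ⟨ξ, mem_KS_of_pow_eq_one T hp.ne_zero hξ'⟩, ?_⟩, rfl⟩
    change (p : ℤ) • Additive.ofMul (⟨ξ, mem_KS_of_pow_eq_one T hp.ne_zero hξ'⟩ : ↥(KS K T)) = 0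
    rw [natCast_zsmul, ← ofMul_pow]
    have : (⟨ξ, mem_KS_of_pow_eq_one T hp.ne_zero hξ'⟩ : ↥(KS K T)) ^ p = 1 :=
      Subtype.ext (by rw [Subgroup.coe_pow, Subgroup.coe_one]; exact hξ')
    rw [this, ofMul_one]

/-- SI-M, hypothesis free form: `[K_T : K_T^p] = p^(|T| + r₂)`. -/
theorem sUnitIndex (hp : p.Prime) (hp2 : p ≠ 2) {ζ : K} (hζ : IsPrimitiveRoot ζ p) :
    SUnitIndex p K := by
  intro T
  have : Fact p.Prime := ⟨hp⟩
  have : Module.Finite ℤ (Additive ↥(KS K T)) := FI.sUnit_finite K T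
  have h1 := (FI.card_quot_zsmul p (Additive ↥(KS K T))).2.2
  have h2 : Module.finrank ℤ (Additive ↥(KS K T)) = Units.rank K + T.card := FI.sUnit_finrank K T
  rw [h2, card_ker_zsmul hp hζ T] at h1
  have h3 : (powMonoidHom p : ↥(KS K T) →* ↥(KS K T)).range.index
      = Nat.card (Additive ↥(KS K T) ⧸
        (zsmulAddGroupHom (p : ℤ) : Additive ↥(KS K T) →+ Additive ↥(KS K T)).range) := by
    rw [index_range_pow_eq_nsmulIndex, nsmulIndex, AddSubgroup.index]
    congr 2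
  rw [h3, h1, ← rank_add_one hp hp2 hζ, ← pow_succ]
  congr 1
  omega

end Fermat.Agent.S55.NIT.SI
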