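/-
S55 / NIT / SI : node SI-B (helper129).  A number field containing a primitive `p`-th root of
unity, `p` odd, has no real place.
-/
import Fermat.Agent.S55.NIT.SI.Defs

set_option autoImplicit false

namespace Fermat.Agent.S55.NIT.SI

open IsDedekindDomain NumberField
open scoped Pointwise

universe u

variable {p : ℕ} {K : Type u} [Field K] [NumberField K]

/-- SI-B (file TotallyComplex.lean). -/
theorem finrank_eq_two_mul (hp : p.Prime) (hp2 : p ≠ 2) {ζ : K} (hζ : IsPrimitiveRoot ζ p) :
    Module.finrank ℚ K = 2 * InfinitePlace.nrComplexPlaces K := by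
  have h2 : 2 < p := lt_of_le_of_ne hp.two_le (Ne.symm hp2)
  rw [← InfinitePlace.card_add_two_mul_card_eq_rank, InfinitePlace.IsPrimitiveRoot.nrRealPlaces_eq_zero_of_two_lt h2 hζ,
    zero_add]

end Fermat.Agent.S55.NIT.SI
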