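/-
S55 / NIT / SI, node SI-A: `∏_{v∈S} [Kˣ : pow v] = p^(2|S| + [K:ℚ])` when `S ⊇ {v | p}`.
-/
import Fermat.Agent.S55.NIT.SI.Defs

set_option autoImplicit false

namespace Fermat.Agent.S55.NIT.SI

open IsDedekindDomain NumberField

universe u

variable {p : ℕ} {K : Type u} [Field K] [NumberField K]

/-- A place not over `p` contributes trivially to the factorisation of `(p)`. -/
private theorem maxPowDividing_eq_one_of_not_over (hp : p.Prime) (v : Pl K) (hv : ¬ Over p K v) :
    v.maxPowDividing (Ideal.span {(p : 𝓞 K)}) = 1 := by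
  have hI : Ideal.span {(p : 𝓞 K)} ≠ 0 := by
    rw [Ne, Ideal.zero_eq_bot, Ideal.span_singleton_eq_bot]
    exact_mod_cast hp.ne_zero
  rw [HeightOneSpectrum.maxPowDividing_eq_pow_multiplicity hI]
  have : multiplicity v.asIdeal (Ideal.span {(p : 𝓞 K)}) = 0 := by
    apply multiplicity_eq_zero.mpr
    intro h
    apply hv
    rw [Ideal.dvd_iff_le, Ideal.span_singleton_le_iff_mem] at h
    exact h
  rw [this, pow_zero]

/-- The product of the local factors of `(p)` over `S ⊇ {v | p}` has norm `p^[K:ℚ]`. -/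
theorem prod_absNorm_maxPowDividing (hp : p.Prime) (S : Finset (Pl K))
    (hpS : ∀ v : Pl K, Over p K v → v ∈ S) :
    ∏ v ∈ S, Ideal.absNorm (v.maxPowDividing (Ideal.span {(p : 𝓞 K)})) =
      p ^ Module.finrank ℚ K := by
  have hI : Ideal.span {(p : 𝓞 K)} ≠ 0 := by
    rw [Ne, Ideal.zero_eq_bot, Ideal.span_singleton_eq_bot]
    exact_mod_cast hp.ne_zero
  rw [← map_prod, ← RingOfIntegers.rank, ← Ideal.absNorm_span_natCast]
  congr 1
  conv_rhs => rw [← Ideal.finprod_heightOneSpectrum_factorization hI]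
  symm
  apply finprod_eq_prod_of_mulSupport_subset
  intro v hv
  rw [Function.mem_mulSupport] at hv
  by_contra hvS
  exact hv (maxPowDividing_eq_one_of_not_over hp v fun h => hvS (hpS v h))

/-- SI-A. `∏_{v∈S} [Kˣ : pow v] = p^(2|S| + [K:ℚ])` when `S ⊇ {v | p}`. -/
theorem card_tgt_pow (hp : p.Prime) (D : LocData p K) (S : Finset (Pl K))
    (hpS : ∀ v : Pl K, Over p K v → v ∈ S) :
    Nat.card (Tgt K D.pow S) = p ^ (2 * S.card + Module.finrank ℚ K) := by
  rw [Nat.card_pi]
  have h1 : ∀ v : S, Nat.card (Kˣ ⧸ D.pow v) =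
      p ^ 2 * Ideal.absNorm ((v : Pl K).maxPowDividing (Ideal.span {(p : 𝓞 K)})) := by
    intro v
    rw [← D.index_pow v]
    rfl
  rw [Finset.prod_congr rfl fun v _ => h1 v, Finset.prod_mul_distrib, Finset.prod_const,
    Finset.card_univ, Fintype.card_coe,
    Finset.prod_coe_sort S
      (fun v => Ideal.absNorm (v.maxPowDividing (Ideal.span {(p : 𝓞 K)}))),
    prod_absNorm_maxPowDividing hp S hpS, ← pow_mul, pow_add]

end Fermat.Agent.S55.NIT.SI
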