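/-
S55 / NIT / SI, node SI-C1: Kummer theory.  If `u ∉ ⟨a⟩ · (Kˣ)^p` then some automorphism of `E / K`
fixes `a^(1/p)` and moves `u^(1/p)`.
-/
import Fermat.Agent.S55.NIT.SI.Defs

set_option autoImplicit false

namespace Fermat.Agent.S55.NIT.SI

open IsDedekindDomain NumberField

/-- The field-theoretic core of SI-C1 (any Galois extension `E / K`). -/
theorem exists_aut_fix_move_aux {p : ℕ} {K E : Type*} [Field K] [Field E] [Algebra K E]
    [FiniteDimensional K E] [IsGalois K E] (hp : p.Prime) {ζ : K} (hζ : IsPrimitiveRoot ζ p)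
    (a u : Kˣ) (hu : ∀ (i : ℕ) (z : Kˣ), u ≠ a ^ i * z ^ p)
    (α β : E) (hα : α ^ p = algebraMap K E a) (hβ : β ^ p = algebraMap K E u) :
    ∃ τ : E ≃ₐ[K] E, τ α = α ∧ τ β ≠ β := by
  by_contra hcon
  push Not at hcon
  have : NeZero p := ⟨hp.ne_zero⟩
  have hinj : Function.Injective (algebraMap K E) := (algebraMap K E).injective
  have hζE : IsPrimitiveRoot (algebraMap K E ζ) p := hζ.map_of_injective hinj
  have hα0 : α ≠ 0 := by
    intro h
    rw [h, zero_pow hp.ne_zero] at hα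
    exact a.ne_zero ((map_eq_zero (algebraMap K E)).1 hα.symm)
  have hβ0 : β ≠ 0 := by
    intro h
    rw [h, zero_pow hp.ne_zero] at hβ
    exact u.ne_zero ((map_eq_zero (algebraMap K E)).1 hβ.symm)
  -- every automorphism multiplies a `p`-th root of an element of `K` by a power of `ζ`
  have key : ∀ (x : E) (c : K), x ≠ 0 → x ^ p = algebraMap K E c → ∀ τ : E ≃ₐ[K] E,
      ∃ k : ℕ, τ x = algebraMap K E (ζ ^ k) * x := by
    intro x c hx hxc τ
    have h1 : (τ x / x) ^ p = 1 := by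
      rw [div_pow, ← map_pow, hxc, AlgEquiv.commutes, div_self]
      rw [← hxc]
      exact pow_ne_zero _ hx
    obtain ⟨k, -, hk⟩ := hζE.eq_pow_of_pow_eq_one h1
    refine ⟨k, ?_⟩
    rw [map_pow, hk]
    field_simp
  -- it suffices to find `j` with `β / α ^ j` fixed by everybody
  have fin : ∀ j : ℕ, (∀ τ : E ≃ₐ[K] E, τ (β / α ^ j) = β / α ^ j) → False := by
    intro j hj
    have hmem : β / α ^ j ∈ (⊥ : IntermediateField K E) := (IsGalois.mem_bot_iff_fixed _).2 hj
    obtain ⟨z, hz⟩ := IntermediateField.mem_bot.1 hmem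
    have hz0 : z ≠ 0 := by
      intro h
      rw [h, map_zero] at hz
      exact (div_ne_zero hβ0 (pow_ne_zero _ hα0)) hz.symm
    apply hu j (Units.mk0 z hz0)
    apply Units.ext
    apply hinj
    rw [Units.val_mul, Units.val_pow_eq_pow_val, Units.val_pow_eq_pow_val, Units.val_mk0, map_mul,
      map_pow, map_pow, hz, ← hα, ← hβ, div_pow]
    field_simp
    rw [← pow_mul, ← pow_mul, mul_comm]
  by_cases hfix : ∀ τ : E ≃ₐ[K] E, τ α = α
  · exact fin 0 (fun τ => by simpa using hcon τ (hfix τ))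
  · push Not at hfix
    obtain ⟨σ, hσ⟩ := hfix
    obtain ⟨c, hc⟩ := key α a hα0 hα σ
    obtain ⟨d, hd⟩ := key β u hβ0 hβ σ
    have hcp : ¬ p ∣ c := by
      intro h
      apply hσ
      rw [hc, (hζ.pow_eq_one_iff_dvd c).2 h, map_one, one_mul]
    have hη : IsPrimitiveRoot (ζ ^ c) p :=
      hζ.pow_of_coprime c ((Nat.Prime.coprime_iff_not_dvd hp).2 hcp).symm
    obtain ⟨j, -, hj⟩ := hη.eq_pow_of_pow_eq_one (ξ := ζ ^ d)
      (by rw [← pow_mul, mul_comm, pow_mul, hζ.pow_eq_one, one_pow])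
    -- iterates of `σ`
    have hσα : ∀ s : ℕ, (σ ^ s) α = algebraMap K E ((ζ ^ c) ^ s) * α := by
      intro s
      induction s with
      | zero => simp
      | succ s ih =>
        rw [pow_succ', AlgEquiv.mul_apply, ih, map_mul, AlgEquiv.commutes, hc, pow_succ, map_mul]
        ring
    have hσβ : ∀ s : ℕ, (σ ^ s) β = algebraMap K E ((ζ ^ d) ^ s) * β := by
      intro s
      induction s with
      | zero => simp
      | succ s ih =>
        rw [pow_succ', AlgEquiv.mul_apply, ih, map_mul, AlgEquiv.commutes, hd, pow_succ, map_mul]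
        ring
    refine fin j (fun τ => ?_)
    obtain ⟨k, hk⟩ := key α a hα0 hα τ
    obtain ⟨m, hm⟩ := key β u hβ0 hβ τ
    obtain ⟨t, -, ht⟩ := hη.eq_pow_of_pow_eq_one (ξ := ζ ^ k)
      (by rw [← pow_mul, mul_comm, pow_mul, hζ.pow_eq_one, one_pow])
    have hηp : (ζ ^ c) ^ p = 1 := hη.pow_eq_one
    have h1 : (σ ^ ((p - 1) * t) * τ) α = α := by
      rw [AlgEquiv.mul_apply, hk, map_mul, AlgEquiv.commutes, hσα, ← mul_assoc, ← map_mul, ← ht,
        ← pow_add]
      have : t + (p - 1) * t = p * t := by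
        obtain ⟨r, rfl⟩ : ∃ r, p = r + 1 := ⟨p - 1, (Nat.succ_pred_eq_of_pos hp.pos).symm⟩
        simp only [Nat.add_sub_cancel]
        ring
      rw [this, pow_mul, hηp, one_pow, map_one, one_mul]
    have h2 := hcon _ h1
    rw [AlgEquiv.mul_apply, hm, map_mul, AlgEquiv.commutes, hσβ, ← mul_assoc, ← map_mul] at h2
    have h3 : ζ ^ m * (ζ ^ d) ^ ((p - 1) * t) = 1 := by
      apply hinj
      rw [map_one]
      exact mul_right_cancel₀ hβ0 (by rw [h2, one_mul])
    have h4 : ζ ^ m = ((ζ ^ c) ^ t) ^ j := by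
      have h5 : (ζ ^ d) ^ ((p - 1) * t) * ((ζ ^ c) ^ t) ^ j = 1 := by
        rw [← hj]
        generalize ζ ^ c = η at hηp ⊢
        rw [← pow_mul, ← pow_mul, ← pow_add]
        have : j * ((p - 1) * t) + t * j = p * (t * j) := by
          obtain ⟨r, rfl⟩ : ∃ r, p = r + 1 := ⟨p - 1, (Nat.succ_pred_eq_of_pos hp.pos).symm⟩
          simp only [Nat.add_sub_cancel]
          ring
        rw [this, pow_mul, hηp, one_pow]
      calc ζ ^ m = ζ ^ m * ((ζ ^ d) ^ ((p - 1) * t) * ((ζ ^ c) ^ t) ^ j) := by rw [h5, mul_one]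
        _ = (ζ ^ m * (ζ ^ d) ^ ((p - 1) * t)) * ((ζ ^ c) ^ t) ^ j := by ring
        _ = ((ζ ^ c) ^ t) ^ j := by rw [h3, one_mul]
    rw [map_div₀, map_pow, hk, hm, h4, ← ht, mul_pow, map_pow]
    have hne : algebraMap K E ((ζ ^ c) ^ t) ^ j ≠ 0 := by
      apply pow_ne_zero
      rw [Ne, map_eq_zero]
      exact pow_ne_zero _ (pow_ne_zero _ (hζ.ne_zero hp.ne_zero))
    exact mul_div_mul_left _ _ hne

universe u

variable {p : ℕ} {K : Type u} [Field K] [NumberField K]

/-- SI-C1 (file KummerIndep.lean). Kummer theory: `β ∉ K(α)` gives an automorphism. -/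
theorem exists_aut_fix_move (hp : p.Prime) {ζ : K} (hζ : IsPrimitiveRoot ζ p)
    {E : Type u} [Field E] [NumberField E] [IsGalois ℚ E] [Algebra K E]
    (a u : Kˣ) (hu : ∀ (i : ℕ) (z : Kˣ), u ≠ a ^ i * z ^ p)
    (α β : E) (hα : α ^ p = algebraMap K E a) (hβ : β ^ p = algebraMap K E u) :
    ∃ τ : E ≃ₐ[K] E, τ α = α ∧ τ β ≠ β := by
  have : IsGalois K E := IsGalois.tower_top_of_isGalois ℚ K E
  have : FiniteDimensional K E := FiniteDimensional.right ℚ K E
  exact exists_aut_fix_move_aux hp hζ a u hu α β hα hβ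

end Fermat.Agent.S55.NIT.SI
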