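/-
S55 / NIT / SI, node SI-C2: an integral element fixed by the decomposition group is congruent to a
rational integer.  Owner: helper49.
-/
import Fermat.Agent.S55.NIT.SI.Defs

set_option autoImplicit false

namespace Fermat.Agent.S55.NIT.SI

open IsDedekindDomain NumberField
open scoped Pointwise

universe u

/-- SI-C2. An integral element fixed by the decomposition group is congruent to a rational
integer. -/
theorem exists_int_sub_mem {E : Type u} [Field E] [NumberField E] [IsGalois ℚ E]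
    (P : Ideal (𝓞 E)) [P.IsPrime] (ℓ : ℕ) (hℓ : ℓ.Prime) (hP : (ℓ : 𝓞 E) ∈ P) (x : 𝓞 E)
    (hx : ∀ σ ∈ MulAction.stabilizer (E ≃ₐ[ℚ] E) P, σ • x = x) :
    ∃ m : ℤ, x - (m : 𝓞 E) ∈ P := by
  classical
  have : Fact ℓ.Prime := ⟨hℓ⟩
  have hne : P ≠ ⊥ := by
    rintro rfl
    have h0 : (ℓ : 𝓞 E) = 0 := by simpa using hP
    exact hℓ.ne_zero (by exact_mod_cast h0)
  have : P.IsMaximal := Ideal.IsPrime.isMaximal inferInstance hne
  have : Finite (𝓞 E ⧸ P) := Ideal.finiteQuotientOfFreeOfNeBot P hne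
  obtain ⟨σ, hσ⟩ := IsArithFrobAt.exists_of_isInvariant ℤ (E ≃ₐ[ℚ] E) P
  have hσx := hx σ hσ.mem_stabilizer
  have hunder : P.under ℤ = Ideal.span {(ℓ : ℤ)} := by
    have hmax : (Ideal.span {(ℓ : ℤ)}).IsMaximal := by
      have hpr : Prime (ℓ : ℤ) := Nat.prime_iff_prime_int.mp hℓ
      exact PrincipalIdealRing.isMaximal_of_irreducible hpr.irreducible
    have hle : Ideal.span {(ℓ : ℤ)} ≤ P.under ℤ := by
      rw [Ideal.span_singleton_le_iff_mem, Ideal.mem_comap]
      simpa using hP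
    have hprime : (P.under ℤ).IsPrime := inferInstance
    exact (hmax.eq_of_le hprime.ne_top hle).symm
  have hcard : Nat.card (ℤ ⧸ P.under ℤ) = ℓ := by
    rw [hunder, Nat.card_congr (Int.quotientSpanNatEquivZMod ℓ).toEquiv, Nat.card_zmod]
  have h1 : x - x ^ ℓ ∈ P := by
    have h := hσ x
    rw [hcard] at h
    change σ • x - x ^ ℓ ∈ P at h
    rwa [hσx] at h
  let _ := Ideal.Quotient.field P
  have : CharP (𝓞 E ⧸ P) ℓ := by
    rw [CharP.charP_iff_prime_eq_zero hℓ]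
    have := Ideal.Quotient.eq_zero_iff_mem.mpr hP
    simpa using this
  have h2 : (Ideal.Quotient.mk P x) ^ ℓ = Ideal.Quotient.mk P x := by
    rw [← map_pow]; exact (Ideal.Quotient.eq.mpr h1).symm
  have h3 := (Subfield.mem_bot_iff_pow_eq_self (𝓞 E ⧸ P) ℓ).mpr h2
  obtain ⟨m, hm⟩ := (mem_bot_iff_intCast ℓ (𝓞 E ⧸ P)).mp h3
  refine ⟨m, ?_⟩
  rw [← Ideal.Quotient.eq, ← hm, map_intCast]

end Fermat.Agent.S55.NIT.SI
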