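/-
S55 / NIT / SI, node SI-C3 (helper120): separation of `a` and `u` by a prime, integral form.
-/
import Fermat.Agent.S55.NIT.SI.Defs
import Fermat.Agent.S55.NIT.SI.GaloisHull
import Fermat.Agent.S55.NIT.SI.KummerIndep
import Fermat.Agent.S55.NIT.SI.ResidueFixed
import Fermat.Agent.Lib.FrobDensity.Stabilizer

set_option autoImplicit false

namespace Fermat.Agent.S55.NIT.SI

open IsDedekindDomain NumberField
open scoped Pointwise

universe u

variable {p : ℕ} {K : Type u} [Field K] [NumberField K]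

namespace SepIntegral

/-- two coprime integers in an ideal -/
theorem eq_top_of_coprime_mem {R : Type*} [CommRing R] (I : Ideal R) {m n : ℕ}
    (h : Nat.Coprime m n) (hm : (m : R) ∈ I) (hn : (n : R) ∈ I) : I = ⊤ := by
  rw [Ideal.eq_top_iff_one]
  obtain ⟨x, y, hxy⟩ := (Nat.isCoprime_iff_coprime.mpr h)
  have h1 : ((x : R) * (m : R) + (y : R) * (n : R)) = 1 := by
    have := congrArg (Int.cast : ℤ → R) hxy
    push_cast at this
    exact this
  rw [← h1]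
  exact I.add_mem (I.mul_mem_left _ hm) (I.mul_mem_left _ hn)

/-- if `ξ ^ p = 1`, `ξ ≠ 1` in a domain and `ξ - 1 ∈ P` then `p ∈ P`. -/
theorem natCast_mem_of_sub_one_mem {R : Type*} [CommRing R] [IsDomain R] (P : Ideal R) {ξ : R}
    (h1 : ξ ^ p = 1) (hne : ξ ≠ 1) (hP : ξ - 1 ∈ P) : (p : R) ∈ P := by
  have hsum : ∑ i ∈ Finset.range p, ξ ^ i = 0 := by
    have := mul_geom_sum ξ p
    rw [h1, sub_self] at this
    exact (mul_eq_zero.mp this).resolve_left (sub_ne_zero.mpr hne)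
  have hmk : Ideal.Quotient.mk P ξ = 1 := by
    rw [← map_one (Ideal.Quotient.mk P)]
    exact (Ideal.Quotient.mk_eq_mk_iff_sub_mem _ _).mpr hP
  have := congrArg (Ideal.Quotient.mk P) hsum
  rw [map_sum, map_zero] at this
  simp only [map_pow, hmk, one_pow, Finset.sum_const, Finset.card_range, nsmul_eq_mul,
    mul_one] at this
  rw [← Ideal.Quotient.eq_zero_iff_mem, map_natCast]
  exact this

/-- the core of the argument, for a fixed Galois hull `E` and a fixed automorphism `τ`. -/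
theorem core {E : Type u} [Field E] [NumberField E] [IsGalois ℚ E] [Algebra K E]
    (hp : p.Prime) {ζ : K} (hζ : IsPrimitiveRoot ζ p) (a u : 𝓞 K) (hu0 : u ≠ 0)
    (α β : E) (hα : α ^ p = algebraMap K E a) (hβ : β ^ p = algebraMap K E u)
    (τ : E ≃ₐ[K] E) (hτα : τ α = α) (hτβ : τ β ≠ β) (B : Finset ℕ) :
    ∃ (w : Pl K) (ℓ : ℕ), ℓ.Prime ∧ ℓ ∉ B ∧ (ℓ : 𝓞 K) ∈ w.asIdeal ∧
      (∃ m : ℤ, a - (m : 𝓞 K) ^ p ∈ w.asIdeal) ∧ ¬ ∃ y : 𝓞 K, u - y ^ p ∈ w.asIdeal := by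
  classical
  have hp0 : 0 < p := hp.pos
  have : NeZero p := ⟨hp.ne_zero⟩
  let σ : E ≃ₐ[ℚ] E := τ.restrictScalars ℚ
  have hσ : ∀ x : E, σ x = τ x := fun _ => rfl
  set N : ℕ := Ideal.absNorm (Ideal.span {u}) with hN
  have hN0 : N ≠ 0 := by
    rw [hN, Ne, Ideal.absNorm_eq_zero_iff, Ideal.span_singleton_eq_bot]
    exact hu0
  obtain ⟨ℓ, P, hℓ, hℓB, hPprime, hℓP, -, hstab⟩ :=
    Fermat.Agent.Lib.FrobDensity.exists_prime_stabilizer_eq_zpowers E σ
      (B ∪ {p} ∪ N.primeFactors)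
  have hℓB' : ℓ ∉ B := fun h => hℓB (by simp [h])
  have hℓp : ℓ ≠ p := fun h => hℓB (by simp [h])
  have hℓN : ¬ ℓ ∣ N := fun h => hℓB (by
    simp only [Finset.mem_union, Nat.mem_primeFactors]
    exact Or.inr ⟨hℓ, h, hN0⟩)
  -- integral lifts
  have hαint : IsIntegral ℤ α := by
    apply IsIntegral.of_pow hp0
    rw [hα]
    exact (RingOfIntegers.isIntegral_coe a).algebraMap
  have hβint : IsIntegral ℤ β := by
    apply IsIntegral.of_pow hp0
    rw [hβ]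
    exact (RingOfIntegers.isIntegral_coe u).algebraMap
  let αO : 𝓞 E := ⟨α, hαint⟩
  let βO : 𝓞 E := ⟨β, hβint⟩
  have hαO : αO ^ p = algebraMap (𝓞 K) (𝓞 E) a := by
    apply RingOfIntegers.ext
    show α ^ p = algebraMap (𝓞 E) E (algebraMap (𝓞 K) (𝓞 E) a)
    rw [← IsScalarTower.algebraMap_apply, IsScalarTower.algebraMap_apply (𝓞 K) K E, hα]
  have hβO : βO ^ p = algebraMap (𝓞 K) (𝓞 E) u := by
    apply RingOfIntegers.ext
    show β ^ p = algebraMap (𝓞 E) E (algebraMap (𝓞 K) (𝓞 E) u)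
    rw [← IsScalarTower.algebraMap_apply, IsScalarTower.algebraMap_apply (𝓞 K) K E, hβ]
  -- `σ` fixes the image of `𝓞 K`
  have hσK : ∀ x : 𝓞 K, σ • algebraMap (𝓞 K) (𝓞 E) x = algebraMap (𝓞 K) (𝓞 E) x := by
    intro x
    apply RingOfIntegers.ext
    show σ (algebraMap (𝓞 E) E (algebraMap (𝓞 K) (𝓞 E) x)) =
      algebraMap (𝓞 E) E (algebraMap (𝓞 K) (𝓞 E) x)
    rw [← IsScalarTower.algebraMap_apply, IsScalarTower.algebraMap_apply (𝓞 K) K E, hσ,
      AlgEquiv.commutes]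
  have hσP : σ • P = P := by
    have : σ ∈ MulAction.stabilizer (E ≃ₐ[ℚ] E) P := by
      rw [hstab]; exact Subgroup.mem_zpowers σ
    exact this
  -- the place `w`
  let wI : Ideal (𝓞 K) := P.comap (algebraMap (𝓞 K) (𝓞 E))
  have hwprime : wI.IsPrime := Ideal.comap_isPrime _ _
  have hℓw : (ℓ : 𝓞 K) ∈ wI := by
    rw [Ideal.mem_comap, map_natCast]
    exact hℓP
  have hw0 : wI ≠ ⊥ := by
    intro h
    rw [h, Ideal.mem_bot] at hℓw
    exact hℓ.ne_zero (by exact_mod_cast hℓw)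
  let w : Pl K := ⟨wI, hwprime, hw0⟩
  have huw : u ∉ wI := by
    intro h
    have h1 : (N : 𝓞 K) ∈ wI :=
      (Ideal.span_singleton_le_iff_mem _).mpr h (Ideal.absNorm_mem _)
    exact hwprime.ne_top (eq_top_of_coprime_mem wI
      ((Nat.Prime.coprime_iff_not_dvd hℓ).mpr hℓN) hℓw h1)
  have hβP : βO ∉ P := by
    intro h
    apply huw
    rw [Ideal.mem_comap, ← hβO]
    exact Ideal.pow_mem_of_mem _ h _ hp0
  refine ⟨w, ℓ, hℓ, hℓB', hℓw, ?_, ?_⟩
  · -- (1)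
    have hfix : ∀ g ∈ MulAction.stabilizer (E ≃ₐ[ℚ] E) P, g • αO = αO := by
      intro g hg
      rw [hstab] at hg
      have hle : Subgroup.zpowers σ ≤ MulAction.stabilizer (E ≃ₐ[ℚ] E) αO := by
        rw [Subgroup.zpowers_le, MulAction.mem_stabilizer_iff]
        apply RingOfIntegers.ext
        show σ α = α
        rw [hσ, hτα]
      exact hle hg
    obtain ⟨m, hm⟩ := exists_int_sub_mem P ℓ hℓ hℓP αO hfix
    refine ⟨m, ?_⟩
    show a - (m : 𝓞 K) ^ p ∈ wI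
    rw [Ideal.mem_comap, map_sub, map_pow, map_intCast, ← hαO]
    exact Ideal.mem_of_dvd _ (sub_dvd_pow_sub_pow _ _ _) hm
  · -- (2)
    rintro ⟨y, hy⟩
    replace hy : u - y ^ p ∈ wI := hy
    rw [Ideal.mem_comap, map_sub, map_pow, ← hβO] at hy
    -- a primitive root of unity in `𝓞 E`
    let ζO : 𝓞 K := hζ.toInteger
    have hζO : IsPrimitiveRoot ζO p := hζ.toInteger_isPrimitiveRoot
    have hinj : Function.Injective (algebraMap (𝓞 K) (𝓞 E)) :=
      FaithfulSMul.algebraMap_injective _ _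
    have hζE : IsPrimitiveRoot (algebraMap (𝓞 K) (𝓞 E) ζO) p := hζO.map_of_injective hinj
    have hroot : ∀ ξ ∈ Polynomial.nthRootsFinset p (1 : 𝓞 E), σ • ξ = ξ := by
      intro ξ hξ
      rw [Polynomial.mem_nthRootsFinset hp0] at hξ
      obtain ⟨i, -, rfl⟩ := hζE.eq_pow_of_pow_eq_one hξ
      rw [← map_pow, hσK]
    rw [hζE.pow_sub_pow_eq_prod_sub_mul _ _ hp0, Ideal.IsPrime.prod_mem_iff] at hy
    obtain ⟨ξ, hξ, hξP⟩ := hy
    have h1 : σ • (βO - ξ * algebraMap (𝓞 K) (𝓞 E) y) ∈ P := by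
      have := Ideal.smul_mem_pointwise_smul σ _ P hξP
      rwa [hσP] at this
    rw [smul_sub, smul_mul', hroot ξ hξ, hσK] at h1
    have h2 : σ • βO - βO ∈ P := by
      have := P.sub_mem h1 hξP
      simpa using this
    -- `σ β = ξ' β`
    have h3 : (σ • βO) ^ p - βO ^ p = 0 := by
      rw [← smul_pow', hβO, hσK, sub_self]
    rw [hζE.pow_sub_pow_eq_prod_sub_mul _ _ hp0, Finset.prod_eq_zero_iff] at h3
    obtain ⟨ξ', hξ', h4⟩ := h3
    rw [sub_eq_zero] at h4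
    rw [Polynomial.mem_nthRootsFinset hp0] at hξ'
    have hξ'1 : ξ' ≠ 1 := by
      rintro rfl
      rw [one_mul] at h4
      apply hτβ
      have := congrArg (fun x : 𝓞 E => (x : E)) h4
      exact this
    have h5 : (ξ' - 1) * βO ∈ P := by
      rw [sub_mul, one_mul, ← h4]
      exact h2
    have h6 : ξ' - 1 ∈ P := (hPprime.mem_or_mem h5).resolve_right hβP
    have h7 : (p : 𝓞 E) ∈ P := natCast_mem_of_sub_one_mem P hξ' hξ'1 h6
    exact hPprime.ne_top (eq_top_of_coprime_mem P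
      ((Nat.coprime_primes hℓ hp).mpr hℓp) hℓP h7)

end SepIntegral

/-- SI-C3 (file SepIntegral.lean). Separation for INTEGRAL `a u`; `B` = excluded rational primes.
Proof: C0, C1, `Fermat.Agent.Lib.FrobDensity.exists_prime_stabilizer_eq_zpowers`, C2. -/
theorem exists_prime_sep_integral (hp : p.Prime) {ζ : K} (hζ : IsPrimitiveRoot ζ p)
    (a u : 𝓞 K) (ha0 : a ≠ 0) (hu0 : u ≠ 0)
    (hu : ∀ (i : ℕ) (z : K), z ≠ 0 → (u : K) ≠ (a : K) ^ i * z ^ p) (B : Finset ℕ) :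
    ∃ (w : Pl K) (ℓ : ℕ), ℓ.Prime ∧ ℓ ∉ B ∧ (ℓ : 𝓞 K) ∈ w.asIdeal ∧
      (∃ m : ℤ, a - (m : 𝓞 K) ^ p ∈ w.asIdeal) ∧ ¬ ∃ y : 𝓞 K, u - y ^ p ∈ w.asIdeal := by
  obtain ⟨E, _, _, _, _, α, β, hα, hβ⟩ := exists_galois_hull hp.pos (a : K) (u : K)
  have ha0' : (a : K) ≠ 0 := by
    intro h
    exact ha0 (RingOfIntegers.ext (by rw [h]; rfl))
  have hu0' : (u : K) ≠ 0 := by
    intro h
    exact hu0 (RingOfIntegers.ext (by rw [h]; rfl))
  obtain ⟨τ, hτα, hτβ⟩ := exists_aut_fix_move hp hζ (E := E) (Units.mk0 (a : K) ha0')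
    (Units.mk0 (u : K) hu0') (by
      intro i z h
      apply hu i (z : K) z.ne_zero
      have := congrArg (fun x : Kˣ => (x : K)) h
      simpa using this) α β hα hβ
  exact SepIntegral.core hp hζ a u hu0 α β hα hβ τ hτα hτβ B

end Fermat.Agent.S55.NIT.SI
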