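/-
S55 / NIT / SI, node SI-C4: separation, valuation form, general `a u ∈ Kˣ`, deduced from the
statement of node SI-C3 (taken as a hypothesis here).  Owner: helper296.
-/
import Fermat.Agent.S55.NIT.SI.Defs

set_option autoImplicit false

namespace Fermat.Agent.S55.NIT.SI

open IsDedekindDomain NumberField

universe u

variable {p : ℕ} {K : Type u} [Field K] [NumberField K]

namespace Sep

theorem dvd_of_mem (w : Pl K) {ℓ t : ℕ} (hℓ : ℓ.Prime) (h1 : (ℓ : 𝓞 K) ∈ w.asIdeal)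
    (h2 : (t : 𝓞 K) ∈ w.asIdeal) : ℓ ∣ t := by
  by_contra h
  have hc : Nat.Coprime ℓ t := (Nat.Prime.coprime_iff_not_dvd hℓ).2 h
  obtain ⟨x, y, hxy⟩ : IsCoprime (ℓ : ℤ) (t : ℤ) := Nat.isCoprime_iff_coprime.2 hc
  have h3 : (1 : 𝓞 K) ∈ w.asIdeal := by
    have e : ((x * ℓ + y * t : ℤ) : 𝓞 K) = 1 := by rw [hxy]; simp
    rw [← e]
    push_cast
    exact w.asIdeal.add_mem (w.asIdeal.mul_mem_left _ h1) (w.asIdeal.mul_mem_left _ h2)
  exact w.isPrime.ne_top ((Ideal.eq_top_iff_one _).2 h3)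

theorem mem_primeFactors_of_le (w : Pl K) {ℓ : ℕ} (hℓ : ℓ.Prime) (h1 : (ℓ : 𝓞 K) ∈ w.asIdeal)
    {I : Ideal (𝓞 K)} (hI0 : I ≠ ⊥) (hI : I ≤ w.asIdeal) : ℓ ∈ (Ideal.absNorm I).primeFactors := by
  rw [Nat.mem_primeFactors]
  refine ⟨hℓ, dvd_of_mem w hℓ h1 (hI (Ideal.absNorm_mem I)), ?_⟩
  rw [Ne, Ideal.absNorm_eq_zero_iff]
  exact hI0

theorem mem_primeFactors_of_mem (w : Pl K) {ℓ : ℕ} (hℓ : ℓ.Prime) (h1 : (ℓ : 𝓞 K) ∈ w.asIdeal)
    {x : 𝓞 K} (hx0 : x ≠ 0) (hx : x ∈ w.asIdeal) :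
    ℓ ∈ (Ideal.absNorm (Ideal.span {x})).primeFactors :=
  mem_primeFactors_of_le w hℓ h1 (by rwa [Ne, Ideal.span_singleton_eq_bot])
    ((Ideal.span_singleton_le_iff_mem _).2 hx)

theorem val_pow_sub_pow_lt (w : Pl K) {y z : K} (hy : w.valuation K y ≤ 1)
    (hz : w.valuation K z ≤ 1) (h : w.valuation K (y - z) < 1) (k : ℕ) :
    w.valuation K (y ^ k - z ^ k) < 1 := by
  induction k with
  | zero => simp
  | succ k ih =>
    have e : y ^ (k + 1) - z ^ (k + 1) = y ^ k * (y - z) + (y ^ k - z ^ k) * z := by ring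
    rw [e]
    apply Valuation.map_add_lt
    · rw [map_mul]
      exact lt_of_le_of_lt (mul_le_of_le_one_left' (by rw [map_pow]; exact pow_le_one' hy k)) h
    · rw [map_mul]
      exact lt_of_le_of_lt (mul_le_of_le_one_right' hz) ih

omit [NumberField K] in
theorem isIntegral_intCast' (n : ℤ) : IsIntegral ℤ (n : K) := by
  have : IsIntegral ℤ (algebraMap ℤ K n) := isIntegral_algebraMap
  simpa using this

/-- a common integer denominator -/
theorem exists_den (a u : K) : ∃ n : ℤ, n ≠ 0 ∧ IsIntegral ℤ ((n : K) * a) ∧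
    IsIntegral ℤ ((n : K) * u) := by
  have halg : ∀ x : K, IsAlgebraic ℤ x := fun x =>
    (IsFractionRing.isAlgebraic_iff ℤ ℚ K).2 (Algebra.IsAlgebraic.isAlgebraic (R := ℚ) x)
  obtain ⟨na, hna0, hna⟩ := (halg a).exists_integral_multiple
  obtain ⟨nu, hnu0, hnu⟩ := (halg u).exists_integral_multiple
  refine ⟨na * nu, mul_ne_zero hna0 hnu0, ?_, ?_⟩
  · have e : ((na * nu : ℤ) : K) * a = (nu : K) * (na • a) := by
      rw [zsmul_eq_mul]; push_cast; ring
    rw [e]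
    exact (isIntegral_intCast' nu).mul hna
  · have e : ((na * nu : ℤ) : K) * u = (na : K) * (nu • u) := by
      rw [zsmul_eq_mul]; push_cast; ring
    rw [e]
    exact (isIntegral_intCast' na).mul hnu

end Sep

open Fermat.Agent.S55.NIT.SI.Sep

/-- SI-C4 from the statement of SI-C3. -/
theorem exists_place_sep_of (hp : p.Prime)
    (hC3 : ∀ (a u : 𝓞 K), a ≠ 0 → u ≠ 0 →
      (∀ (i : ℕ) (z : K), z ≠ 0 → (u : K) ≠ (a : K) ^ i * z ^ p) → ∀ B : Finset ℕ,
      ∃ (w : Pl K) (ℓ : ℕ), ℓ.Prime ∧ ℓ ∉ B ∧ (ℓ : 𝓞 K) ∈ w.asIdeal ∧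
        (∃ m : ℤ, a - (m : 𝓞 K) ^ p ∈ w.asIdeal) ∧ ¬ ∃ y : 𝓞 K, u - y ^ p ∈ w.asIdeal)
    (S : Finset (Pl K)) (a u : Kˣ) (hu : ∀ (i : ℕ) (z : Kˣ), u ≠ a ^ i * z ^ p) :
    ∃ w : Pl K, w ∉ S ∧ ¬ Over p K w ∧ a ∈ Uv K w ∧ u ∈ Uv K w ∧
      (∃ y : Kˣ, w.valuation K ((a : K) - (y : K) ^ p) < 1) ∧
      ¬ ∃ y : Kˣ, w.valuation K ((u : K) - (y : K) ^ p) < 1 := by
  classical
  obtain ⟨n, hn0, hna, hnu⟩ := exists_den (a : K) (u : K)
  have hnK : (n : K) ≠ 0 := by exact_mod_cast hn0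
  have hpow : (n : K) ^ p = (n : K) ^ (p - 1) * n := by
    rw [← pow_succ, Nat.sub_add_cancel hp.pos]
  have hia : IsIntegral ℤ ((n : K) ^ p * a) := by
    rw [hpow, mul_assoc]
    exact ((isIntegral_intCast' n).pow _).mul hna
  have hiu : IsIntegral ℤ ((n : K) ^ p * u) := by
    rw [hpow, mul_assoc]
    exact ((isIntegral_intCast' n).pow _).mul hnu
  obtain ⟨a', ha'⟩ : ∃ a' : 𝓞 K, algebraMap (𝓞 K) K a' = (n : K) ^ p * a := ⟨⟨_, hia⟩, rfl⟩
  obtain ⟨u', hu'⟩ : ∃ u' : 𝓞 K, algebraMap (𝓞 K) K u' = (n : K) ^ p * u := ⟨⟨_, hiu⟩, rfl⟩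
  have ha'0 : a' ≠ 0 := by
    intro h
    rw [h, map_zero] at ha'
    exact mul_ne_zero (pow_ne_zero _ hnK) a.ne_zero ha'.symm
  have hu'0 : u' ≠ 0 := by
    intro h
    rw [h, map_zero] at hu'
    exact mul_ne_zero (pow_ne_zero _ hnK) u.ne_zero hu'.symm
  have htr : ∀ (i : ℕ) (z : K), z ≠ 0 → (u' : K) ≠ (a' : K) ^ i * z ^ p := by
    intro i z hz heq
    have heq' : (n : K) ^ p * u = ((n : K) ^ p * a) ^ i * z ^ p := by
      rw [← ha', ← hu']; exact heq
    have hz' : (n : K) ^ i * z / n ≠ 0 := div_ne_zero (mul_ne_zero (pow_ne_zero _ hnK) hz) hnK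
    apply hu i (Units.mk0 _ hz')
    apply Units.ext
    rw [Units.val_mul, Units.val_pow_eq_pow_val, Units.val_pow_eq_pow_val, Units.val_mk0]
    have h1 : (n : K) ^ p ≠ 0 := pow_ne_zero _ hnK
    rw [div_pow, mul_div_assoc', eq_div_iff h1]
    linear_combination heq'
  set B : Finset ℕ := {p} ∪ n.natAbs.primeFactors ∪ (Ideal.absNorm (Ideal.span {a'})).primeFactors ∪
    (Ideal.absNorm (Ideal.span {u'})).primeFactors ∪
    S.biUnion (fun v => (Ideal.absNorm v.asIdeal).primeFactors) with hB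
  obtain ⟨w, ℓ, hℓ, hℓB, hℓw, ⟨m, hm⟩, hno⟩ := hC3 a' u' ha'0 hu'0 htr B
  simp only [hB, Finset.mem_union, Finset.mem_singleton, Finset.mem_biUnion, not_or, not_exists,
    not_and] at hℓB
  obtain ⟨⟨⟨⟨hB1, hB2⟩, hB3⟩, hB4⟩, hB5⟩ := hℓB
  -- the elementary consequences
  have hwS : w ∉ S := fun h => hB5 w h (mem_primeFactors_of_le w hℓ hℓw w.ne_bot le_rfl)
  have hwp : ¬ Over p K w := by
    intro h
    have := dvd_of_mem w hℓ hℓw h
    exact hB1 ((Nat.prime_dvd_prime_iff_eq hℓ hp).1 this)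
  have hnw : (n : 𝓞 K) ∉ w.asIdeal := by
    intro h
    have h' : ((n.natAbs : ℕ) : 𝓞 K) ∈ w.asIdeal := by
      rcases Int.natAbs_eq n with e | e
      · have : ((n.natAbs : ℕ) : 𝓞 K) = (n : 𝓞 K) := by
          conv_rhs => rw [e]
          simp
        rw [this]; exact h
      · have : ((n.natAbs : ℕ) : 𝓞 K) = -(n : 𝓞 K) := by
          conv_rhs => rw [e]
          simp
        rw [this]; exact w.asIdeal.neg_mem h
    exact hB2 (Nat.mem_primeFactors.2 ⟨hℓ, dvd_of_mem w hℓ hℓw h', by simpa using hn0⟩)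
  have ha'w : a' ∉ w.asIdeal := fun h => hB3 (mem_primeFactors_of_mem w hℓ hℓw ha'0 h)
  have hu'w : u' ∉ w.asIdeal := fun h => hB4 (mem_primeFactors_of_mem w hℓ hℓw hu'0 h)
  have hvn : w.valuation K (n : K) = 1 := by
    have := (HeightOneSpectrum.valuation_eq_one_iff_notMem (K := K) (v := w)).2 hnw
    simpa using this
  have hva : w.valuation K (a : K) = 1 := by
    have := (HeightOneSpectrum.valuation_eq_one_iff_notMem (K := K) (v := w)).2 ha'w
    rwa [ha', map_mul, map_pow, hvn, one_pow, one_mul] at this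
  have hvu : w.valuation K (u : K) = 1 := by
    have := (HeightOneSpectrum.valuation_eq_one_iff_notMem (K := K) (v := w)).2 hu'w
    rwa [hu', map_mul, map_pow, hvn, one_pow, one_mul] at this
  refine ⟨w, hwS, hwp, hva, hvu, ?_, ?_⟩
  · have hm0 : (m : K) ≠ 0 := by
      intro h
      have hm0' : m = 0 := by exact_mod_cast h
      rw [hm0', Int.cast_zero, zero_pow hp.ne_zero, sub_zero] at hm
      exact ha'w hm
    refine ⟨Units.mk0 ((m : K) / n) (div_ne_zero hm0 hnK), ?_⟩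
    rw [Units.val_mk0]
    have e : (a : K) - ((m : K) / n) ^ p
        = algebraMap (𝓞 K) K (a' - (m : 𝓞 K) ^ p) / (n : K) ^ p := by
      rw [map_sub, ha', map_pow, map_intCast, div_pow]
      field_simp
    rw [e, map_div₀, map_pow, hvn, one_pow, div_one]
    exact (HeightOneSpectrum.valuation_lt_one_iff_mem (K := K) w _).2 hm
  · rintro ⟨y, hy⟩
    have hy1 : w.valuation K (y : K) ≤ 1 := by
      by_contra h
      push Not at h
      have h2 : w.valuation K (u : K) < w.valuation K ((y : K) ^ p) := by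
        rw [hvu, map_pow]
        exact one_lt_pow' h hp.ne_zero
      rw [Valuation.map_sub_eq_of_lt_right _ h2] at hy
      rw [hvu] at h2
      exact absurd hy (not_lt.2 h2.le)
    obtain ⟨y1, hy1'⟩ := HeightOneSpectrum.exists_valuation_sub_lt_of_integer w hy1 1
    rw [Units.val_one] at hy1'
    have hy2 : w.valuation K ((y : K) ^ p - (algebraMap (𝓞 K) K y1) ^ p) < 1 := by
      apply val_pow_sub_pow_lt w hy1 (HeightOneSpectrum.valuation_le_one w y1)
      rw [Valuation.map_sub_swap]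
      exact hy1'
    have hy3 : w.valuation K ((u : K) - (algebraMap (𝓞 K) K y1) ^ p) < 1 := by
      have e : (u : K) - (algebraMap (𝓞 K) K y1) ^ p
          = ((u : K) - (y : K) ^ p) + ((y : K) ^ p - (algebraMap (𝓞 K) K y1) ^ p) := by ring
      rw [e]
      exact Valuation.map_add_lt _ hy hy2
    apply hno
    refine ⟨(n : 𝓞 K) * y1, ?_⟩
    rw [← HeightOneSpectrum.valuation_lt_one_iff_mem (K := K) w]
    have e : algebraMap (𝓞 K) K (u' - ((n : 𝓞 K) * y1) ^ p)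
        = (n : K) ^ p * ((u : K) - (algebraMap (𝓞 K) K y1) ^ p) := by
      rw [map_sub, hu', map_pow, map_mul, map_intCast]
      ring
    show w.valuation K (algebraMap (𝓞 K) K (u' - ((n : 𝓞 K) * y1) ^ p)) < 1
    rw [e, map_mul, map_pow, hvn, one_pow, one_mul]
    exact hy3

end Fermat.Agent.S55.NIT.SI
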