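/-
S55 / NIT / SI, node SI-C4: separation, valuation form, general `a u ∈ Kˣ`.
Owner: helper296.  (`SepOf.lean` does the work; `SepIntegral.lean` is node SI-C3.)
-/
import Fermat.Agent.S55.NIT.SI.SepOf
import Fermat.Agent.S55.NIT.SI.SepIntegral

set_option autoImplicit false

namespace Fermat.Agent.S55.NIT.SI

open IsDedekindDomain NumberField

universe u

variable {p : ℕ} {K : Type u} [Field K] [NumberField K]

/-- SI-C4 (file Sep.lean). Separation, valuation form, general `a u ∈ Kˣ`. Proof: clear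
denominators by `p`-th powers of rational integers, put the bad rational primes in `B`, use C3. -/
theorem exists_place_sep (hp : p.Prime) {ζ : K} (hζ : IsPrimitiveRoot ζ p) (S : Finset (Pl K))
    (a u : Kˣ) (hu : ∀ (i : ℕ) (z : Kˣ), u ≠ a ^ i * z ^ p) :
    ∃ w : Pl K, w ∉ S ∧ ¬ Over p K w ∧ a ∈ Uv K w ∧ u ∈ Uv K w ∧
      (∃ y : Kˣ, w.valuation K ((a : K) - (y : K) ^ p) < 1) ∧
      ¬ ∃ y : Kˣ, w.valuation K ((u : K) - (y : K) ^ p) < 1 :=
  exists_place_sep_of hp
    (fun a u ha0 hu0 h B => exists_prime_sep_integral hp hζ a u ha0 hu0 h B) S a u hu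

end Fermat.Agent.S55.NIT.SI
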