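/-
S55 / NIT / SI, node SI-D: cutting a subgroup of index `p^m` out by `m` subgroups of index `p`.
-/
import Fermat.Agent.S55.NIT.SI.Defs

set_option autoImplicit false

namespace Fermat.Agent.S55.NIT.SI

variable {p : ℕ}

/-- the inductive statement behind `exists_finset_iInf_eq` -/
theorem AbstractInf.exists_finset_index {G ι : Type*} [CommGroup G] (hp : p.Prime) (B : Subgroup G)
    (m : ℕ) (hB : B.index = p ^ m) (H : ι → Subgroup G) (hBH : ∀ i, B ≤ H i)
    (hH : ∀ i, (H i).index ∣ p) (hsep : ∀ u, u ∉ B → ∃ i, u ∉ H i) (k : ℕ) (hk : k ≤ m) :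
    ∃ W : Finset ι, W.card = k ∧ (⨅ i ∈ W, H i).index = p ^ k := by
  classical
  induction k with
  | zero => exact ⟨∅, rfl, by simp⟩
  | succ k ih =>
    obtain ⟨W, hW, hidx⟩ := ih (by omega)
    set C : Subgroup G := ⨅ i ∈ W, H i with hC
    have hBC : B ≤ C := le_iInf₂ fun i _ => hBH i
    have hne : ¬ C ≤ B := by
      intro hle
      have : C = B := le_antisymm hle hBC
      rw [this, hB] at hidx
      have := Nat.pow_right_injective hp.two_le hidx
      omega
    obtain ⟨u, huC, huB⟩ := SetLike.not_le_iff_exists.mp hne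
    obtain ⟨i, hi⟩ := hsep u huB
    have hiW : i ∉ W := by
      intro h
      apply hi
      have := (Subgroup.mem_iInf.mp huC) i
      exact (Subgroup.mem_iInf.mp this) h
    refine ⟨insert i W, by rw [Finset.card_insert_of_notMem hiW, hW], ?_⟩
    have hinf : (⨅ j ∈ insert i W, H j) = H i ⊓ C := by
      rw [Finset.iInf_insert]
    rw [hinf]
    have h1 : (H i ⊓ C).relIndex C * C.index = (H i ⊓ C).index :=
      Subgroup.relIndex_mul_index inf_le_right
    rw [Subgroup.inf_relIndex_right] at h1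
    have h2 : (H i).relIndex C ∣ p := (Subgroup.relIndex_dvd_index_of_normal (H i) C).trans (hH i)
    have h3 : (H i).relIndex C ≠ 1 := by
      intro h
      exact hi (Subgroup.relIndex_eq_one.mp h huC)
    have h4 : (H i).relIndex C = p := ((Nat.dvd_prime hp).mp h2).resolve_left h3
    rw [← h1, h4, hidx, pow_succ, mul_comm]

/-- SI-D (file AbstractInf.lean). Cutting a subgroup of index `p^m` out by `m` subgroups of
index `p`. -/
theorem exists_finset_iInf_eq {G ι : Type*} [CommGroup G] (hp : p.Prime) (B : Subgroup G) (m : ℕ)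
    (hB : B.index = p ^ m) (H : ι → Subgroup G) (hBH : ∀ i, B ≤ H i) (hH : ∀ i, (H i).index ∣ p)
    (hsep : ∀ u, u ∉ B → ∃ i, u ∉ H i) :
    ∃ W : Finset ι, W.card = m ∧ ∀ u, (∀ i ∈ W, u ∈ H i) → u ∈ B := by
  obtain ⟨W, hW, hidx⟩ := AbstractInf.exists_finset_index hp B m hB H hBH hH hsep m le_rfl
  refine ⟨W, hW, fun u hu => ?_⟩
  set C : Subgroup G := ⨅ i ∈ W, H i with hC
  have hBC : B ≤ C := le_iInf₂ fun i _ => hBH i
  have h1 : B.relIndex C * C.index = B.index := Subgroup.relIndex_mul_index hBC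
  rw [hidx, hB] at h1
  have hpos : 0 < p ^ m := pow_pos hp.pos m
  have h2 : B.relIndex C = 1 := by
    have : B.relIndex C * p ^ m = 1 * p ^ m := by rw [h1, one_mul]
    exact Nat.eq_of_mul_eq_mul_right hpos this
  have hCB : C ≤ B := Subgroup.relIndex_eq_one.mp h2
  apply hCB
  rw [hC]
  exact Subgroup.mem_iInf.mpr fun i => Subgroup.mem_iInf.mpr fun hi => hu i hi

end Fermat.Agent.S55.NIT.SI
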