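/-
S55 / NIT / SI, node SI-G: the choice of the auxiliary primes.

`exists_aux_of` is the node SI-G with the statements of the nodes SI-D (specialised), SI-E, SI-F0,
SI-C4 as explicit hypotheses `hD hE hF0 hC4`; it only depends on `Defs.lean`.
-/
import Fermat.Agent.S55.NIT.SI.Defs

set_option autoImplicit false

namespace Fermat.Agent.S55.NIT.SI

open IsDedekindDomain NumberField

universe u

variable {p : ℕ} {K : Type u} [Field K] [NumberField K]

namespace AuxPrimes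

theorem mem_KS {T : Finset (Pl K)} {x : Kˣ} :
    x ∈ KS K T ↔ ∀ v : Pl K, v ∉ T → v.valuation K (x : K) = 1 := by
  constructor
  · intro h v hv
    exact h v (by simpa using hv)
  · intro h v hv
    exact h v (by simpa using hv)

theorem KS_le_Uv {T : Finset (Pl K)} {w : Pl K} (hw : w ∉ T) : KS K T ≤ Uv K w :=
  fun _ hx => mem_KS.1 hx w hw

/-- a `p`-th root of a `T`-unit is a `T`-unit -/
theorem mem_KS_of_pow_mem {T : Finset (Pl K)} {z : Kˣ} (hp : p ≠ 0) (h : z ^ p ∈ KS K T) :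
    z ∈ KS K T := by
  rw [mem_KS] at h ⊢
  intro v hv
  have h1 := h v hv
  rw [Units.val_pow_eq_pow_val, map_pow] at h1
  exact (pow_eq_one_iff_left hp).1 h1

theorem lineSub_le_pow (D : LocData p K) (S : Finset (Pl K)) {a : Kˣ} {w : Pl K}
    (ha : a ∈ D.pow w) : lineSub p K S a ≤ D.pow w := by
  unfold lineSub
  refine sup_le ((Subgroup.zpowers_le).2 ha) ?_
  rintro _ ⟨x, -, rfl⟩
  exact D.pow_mem w x

theorem relIndex_pow_KS_dvd (D : LocData p K) (S : Finset (Pl K)) {w : Pl K} (hw : w ∉ S)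
    (h1 : (D.pow w).relIndex (Uv K w) = p) :
    (D.pow w).relIndex (KS K S) ∣ p := by
  have h2 : ((D.pow w).subgroupOf (Uv K w)).relIndex ((KS K S).subgroupOf (Uv K w)) =
      (D.pow w).relIndex (KS K S) := Subgroup.relIndex_subgroupOf (KS_le_Uv hw)
  rw [← h2]
  conv_rhs => rw [← h1]
  exact Subgroup.relIndex_dvd_index_of_normal _ _

theorem mem_lineSub_of_eq {S : Finset (Pl K)} {a u z : Kˣ} {i : ℕ} (hp : p ≠ 0)
    (haS : a ∈ KS K S) (hu : u ∈ KS K S) (h : u = a ^ i * z ^ p) : u ∈ lineSub p K S a := by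
  have hz : z ∈ KS K S := by
    apply mem_KS_of_pow_mem hp
    have : z ^ p = (a ^ i)⁻¹ * u := by rw [h]; group
    rw [this]
    exact (KS K S).mul_mem ((KS K S).inv_mem ((KS K S).pow_mem haS i)) hu
  rw [h]
  unfold lineSub
  exact Subgroup.mul_mem_sup (Subgroup.pow_mem _ (Subgroup.mem_zpowers a) i) ⟨z, hz, rfl⟩

end AuxPrimes

open AuxPrimes in
/-- SI-G, with the nodes it uses as hypotheses. -/
theorem exists_aux_of (hp : p.Prime) (D : LocData p K)
    (S : Finset (Pl K)) (hpS : ∀ v : Pl K, Over p K v → v ∈ S)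
    (a : Kˣ) (haS : a ∈ KS K S)
    (hD : ∀ (B : Subgroup ↥(KS K S)) (m : ℕ), B.index = p ^ m →
      ∀ H : {w : Pl K // w ∉ S ∧ a ∈ D.pow w} → Subgroup ↥(KS K S),
      (∀ i, B ≤ H i) → (∀ i, (H i).index ∣ p) → (∀ u, u ∉ B → ∃ i, u ∉ H i) →
      ∃ W : Finset {w : Pl K // w ∉ S ∧ a ∈ D.pow w},
        W.card = m ∧ ∀ u, (∀ i ∈ W, u ∈ H i) → u ∈ B)
    (hE : (lineSub p K S a).relIndex (KS K S) * p =
      p ^ (S.card + InfinitePlace.nrComplexPlaces K))
    (hF0 : ∀ w : Pl K, ¬ Over p K w → (D.pow w).relIndex (Uv K w) = p)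
    (hC4 : ∀ u : Kˣ, (∀ (i : ℕ) (z : Kˣ), u ≠ a ^ i * z ^ p) →
      ∃ w : Pl K, w ∉ S ∧ ¬ Over p K w ∧ a ∈ Uv K w ∧ u ∈ Uv K w ∧
        (∃ y : Kˣ, w.valuation K ((a : K) - (y : K) ^ p) < 1) ∧
        ¬ ∃ y : Kˣ, w.valuation K ((u : K) - (y : K) ^ p) < 1) :
    ∃ W : Finset (Pl K), Disjoint S W ∧ (∀ w ∈ W, a ∈ D.pow w) ∧
      W.card + 1 = S.card + InfinitePlace.nrComplexPlaces K ∧
      ∀ u ∈ KS K S, (∀ w ∈ W, u ∈ D.pow w) → u ∈ lineSub p K S a := by
  set n := S.card + InfinitePlace.nrComplexPlaces K with hn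
  obtain ⟨m, hm⟩ : ∃ m, n = m + 1 := by
    rcases Nat.eq_zero_or_pos n with h0 | h0
    · rw [h0, pow_zero] at hE
      exact absurd (Nat.eq_one_of_mul_eq_one_left hE) hp.one_lt.ne'
    · exact ⟨n - 1, by omega⟩
  rw [hm, pow_succ] at hE
  have hB : ((lineSub p K S a).subgroupOf (KS K S)).index = p ^ m :=
    Nat.eq_of_mul_eq_mul_right hp.pos hE
  obtain ⟨W, hWcard, hW⟩ := hD ((lineSub p K S a).subgroupOf (KS K S)) m hB
    (fun w => (D.pow w.1).subgroupOf (KS K S))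
    (fun w x hx => by
      rw [Subgroup.mem_subgroupOf] at hx ⊢
      exact lineSub_le_pow D S w.2.2 hx)
    (fun w => relIndex_pow_KS_dvd D S w.2.1 (hF0 w.1 (fun h => w.2.1 (hpS w.1 h))))
    (fun u hu => by
      rw [Subgroup.mem_subgroupOf] at hu
      obtain ⟨w, hwS, hwp, haw, huw, hay, huy⟩ := hC4 (u : Kˣ)
        (fun i z h => hu (mem_lineSub_of_eq hp.ne_zero haS u.2 h))
      refine ⟨⟨w, hwS, (D.tame w hwp a haw).2 hay⟩, ?_⟩
      rw [Subgroup.mem_subgroupOf]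
      exact fun h => huy ((D.tame w hwp _ huw).1 h))
  refine ⟨W.map (Function.Embedding.subtype _), ?_, ?_, ?_, ?_⟩
  · rw [Finset.disjoint_right]
    intro w hw
    obtain ⟨w', -, rfl⟩ := Finset.mem_map.1 hw
    exact w'.2.1
  · intro w hw
    obtain ⟨w', -, rfl⟩ := Finset.mem_map.1 hw
    exact w'.2.2
  · rw [Finset.card_map, hWcard, hm]
  · intro u hu h
    have := hW ⟨u, hu⟩ (fun i hi => by
      rw [Subgroup.mem_subgroupOf]
      exact h i.1 (Finset.mem_map.2 ⟨i, hi, rfl⟩))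
    rwa [Subgroup.mem_subgroupOf] at this

end Fermat.Agent.S55.NIT.SI
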