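/-
S55 / NIT / SI, node SI-I: the key lemma of the second inequality.   Owner: helper272.
-/
import Fermat.Agent.S55.NIT.SI.Defs

set_option autoImplicit false

namespace Fermat.Agent.S55.NIT.SI

open IsDedekindDomain NumberField

universe u

variable {p : ℕ} {K : Type u} [Field K] [NumberField K]

/-- `Cl_S = 1` implies `Cl_{S ∪ W} = 1`. -/
theorem ClTriv.uni {S : Finset (Pl K)} (hCl : ClTriv K S) (W : Finset (Pl K)) :
    ClTriv K (uni K S W) := by
  intro w hw
  obtain ⟨ϖ, h1, h2⟩ := hCl w (fun h => hw (mem_uni.mpr (Or.inl h)))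
  exact ⟨ϖ, h1, fun v hv hvw => h2 v (fun h => hv (mem_uni.mpr (Or.inl h))) hvw⟩

/-- SI-I. An `S∪W`-unit which is a local `p`-th power on `S` is a `p`-th power. -/
theorem key (D : LocData p K) (hFI : FirstIneq p K D)
    (S : Finset (Pl K)) (hpS : ∀ v : Pl K, Over p K v → v ∈ S) (hCl : ClTriv K S)
    (W : Finset (Pl K)) (hsurj : img K D.pow W (KS K (uni K S W)) = ⊤)
    (y : Kˣ) (hy : y ∈ KS K (uni K S W)) (hyS : ∀ v ∈ S, y ∈ D.pow v) : ∃ z : Kˣ, z ^ p = y := by
  classical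
  by_contra hcon
  have hcon' : ∀ z : Kˣ, z ^ p ≠ y := fun z hz => hcon ⟨z, hz⟩
  refine hFI y hcon' (uni K S W) (fun v hv => mem_uni.mpr (Or.inl (hpS v hv))) hy
    (hCl.uni W) ?_
  rw [eq_top_iff]
  intro t _
  -- representatives
  have hrep : ∀ v : (uni K S W : Finset (Pl K)), ∃ x : Kˣ, QuotientGroup.mk' (D.nrm y v) x = t v :=
    fun v => QuotientGroup.mk'_surjective _ (t v)
  choose x hx using hrep
  let x' : Pl K → Kˣ := fun v => if hv : v ∈ uni K S W then x ⟨v, hv⟩ else 1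
  have ht' : (fun w : W => QuotientGroup.mk' (D.pow w) (x' w) : Tgt K D.pow W) ∈
      img K D.pow W (KS K (uni K S W)) := by
    rw [hsurj]; trivial
  obtain ⟨g, hg, hgt⟩ := ht'
  refine ⟨g, hg, ?_⟩
  funext v
  rw [diag_apply, ← hx v]
  rcases mem_uni.mp v.2 with hvS | hvW
  · -- the quotient is trivial
    have htop : D.nrm y v = ⊤ := D.nrm_eq_top y v (hyS v hvS)
    rw [QuotientGroup.mk'_eq_mk']
    exact ⟨g⁻¹ * x v, by rw [htop]; trivial, by group⟩
  · have h1 := congrFun hgt ⟨v.1, hvW⟩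
    rw [diag_apply] at h1
    have h2 : x' v.1 = x v := by
      simp only [x', v.2, dif_pos]
    simp only [h2] at h1
    rw [QuotientGroup.mk'_eq_mk'] at h1 ⊢
    obtain ⟨z, hz, hgz⟩ := h1
    exact ⟨z, D.pow_le_nrm y v hz, hgz⟩

end Fermat.Agent.S55.NIT.SI
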