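/-
S55 / NIT / SI, node SI-E: `[K_S : ⟨a⟩ K_S^p] · p = [K_S : K_S^p]`.  Proofs: helper171.
-/
import Fermat.Agent.S55.NIT.SI.Defs

set_option autoImplicit false

namespace Fermat.Agent.S55.NIT.SI

open IsDedekindDomain NumberField
open scoped Pointwise

universe u

variable {p : ℕ} {K : Type u} [Field K] [NumberField K]

/-- abstract form: in a commutative group, `[G : ⟨a⟩ G^p] · p = [G : G^p]` if `a ∈ G` is not a
`p`-th power of an element of `G`. -/
theorem relIndex_zpowers_sup_map_pow {Γ : Type*} [CommGroup Γ] (hp : p.Prime) (G : Subgroup Γ)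
    (a : Γ) (haG : a ∈ G) (ha : ∀ z ∈ G, z ^ p ≠ a) :
    (Subgroup.zpowers a ⊔ G.map (powMonoidHom p)).relIndex G * p =
      ((powMonoidHom p : ↥G →* ↥G).range).index := by
  set P : Subgroup Γ := G.map (powMonoidHom p) with hP
  have hPG : P ≤ G := by
    rintro _ ⟨y, hy, rfl⟩
    exact G.pow_mem hy p
  have haP : a ∉ P := by
    rintro ⟨y, hy, hya⟩
    exact ha y hy hya
  have hapP : a ^ p ∈ P := ⟨a, haG, rfl⟩
  have h1 : P.relIndex G = ((powMonoidHom p : ↥G →* ↥G).range).index := by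
    rw [Subgroup.relIndex]
    congr 1
    ext x
    rw [Subgroup.mem_subgroupOf, MonoidHom.mem_range]
    constructor
    · rintro ⟨y, hy, hyx⟩
      exact ⟨⟨y, hy⟩, Subtype.ext hyx⟩
    · rintro ⟨y, rfl⟩
      exact ⟨y, y.2, rfl⟩
  have hLG : Subgroup.zpowers a ⊔ P ≤ G :=
    sup_le ((Subgroup.zpowers_le).mpr haG) hPG
  have h2 := Subgroup.relIndex_mul_relIndex P (Subgroup.zpowers a ⊔ P) G le_sup_right hLG
  have h3 : P.relIndex (Subgroup.zpowers a ⊔ P) = p := by
    rw [Subgroup.relIndex_sup_right]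
    have h4 := Subgroup.relIndex_ker (Subgroup.zpowers a) (QuotientGroup.mk' P)
    rw [QuotientGroup.ker_mk', MonoidHom.map_zpowers, Nat.card_zpowers] at h4
    rw [h4]
    have : Fact p.Prime := ⟨hp⟩
    apply orderOf_eq_prime
    · rw [← map_pow]
      exact (QuotientGroup.eq_one_iff _).mpr hapP
    · intro h
      exact haP ((QuotientGroup.eq_one_iff _).mp h)
  rw [← h1, ← h2, h3, mul_comm]

/-- SI-E (file LineIndex.lean). `[K_S : ⟨a⟩ K_S^p] · p = [K_S : K_S^p]`. -/
theorem relIndex_lineSub (hp : p.Prime) (hU : SUnitIndex p K) (S : Finset (Pl K)) (a : Kˣ)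
    (haS : a ∈ KS K S) (ha : ∀ z : Kˣ, z ^ p ≠ a) :
    (lineSub p K S a).relIndex (KS K S) * p = p ^ (S.card + InfinitePlace.nrComplexPlaces K) := by
  rw [← hU S]
  exact relIndex_zpowers_sup_map_pow hp (KS K S) a haS (fun z _ => ha z)

end Fermat.Agent.S55.NIT.SI
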