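/-
S55 / NIT / SI, node SI-J: the counting core of `main` (no dependence on the other nodes: what is
needed from them is taken as hypotheses).   Owner: helper279.
-/
import Fermat.Agent.S55.NIT.SI.Defs

set_option autoImplicit false

namespace Fermat.Agent.S55.NIT.SI

open IsDedekindDomain NumberField

universe u

variable {p : ℕ} {K : Type u} [Field K] [NumberField K]

theorem mem_KS {T : Finset (Pl K)} {x : Kˣ} :
    x ∈ KS K T ↔ ∀ v : Pl K, v ∉ T → v.valuation K (x : K) = 1 := Iff.rfl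

/-- A `p`-th root of a `T`-unit is a `T`-unit. -/
theorem mem_KS_of_pow_mem (hp : p ≠ 0) {T : Finset (Pl K)} {z : Kˣ} (hz : z ^ p ∈ KS K T) :
    z ∈ KS K T := by
  rw [mem_KS] at hz ⊢
  intro v hv
  have h := hz v hv
  rw [Units.val_pow_eq_pow_val, map_pow] at h
  exact (pow_eq_one_iff.mp h).resolve_right hp

theorem img_eq_range (H : Pl K → Subgroup Kˣ) (S : Finset (Pl K)) (Γ : Subgroup Kˣ) :
    img K H S Γ = ((diag K H S).comp Γ.subtype).range := by
  rw [img, ← MonoidHom.map_range, Subgroup.range_subtype]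

theorem mem_ker_diag_iff (H : Pl K → Subgroup Kˣ) (S : Finset (Pl K)) (x : Kˣ) :
    x ∈ (diag K H S).ker ↔ ∀ v ∈ S, x ∈ H v := by
  rw [MonoidHom.mem_ker]
  constructor
  · intro h v hv
    have h1 := congrFun h ⟨v, hv⟩
    rw [diag_apply] at h1
    exact (QuotientGroup.eq_one_iff x).mp h1
  · intro h
    funext v
    rw [diag_apply]
    exact (QuotientGroup.eq_one_iff x).mpr (h v v.2)

/-- The counting argument: the index of the image of `K_{S ∪ W}` in `∏_{v ∈ S} Kˣ/pow v`. -/
theorem main_core (hp : p.Prime) (D : LocData p K) (hU : SUnitIndex p K)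
    (S W : Finset (Pl K)) (hSW : Disjoint S W)
    (hcard : W.card + 1 = S.card + InfinitePlace.nrComplexPlaces K)
    (hT : Nat.card (Tgt K D.pow S) = p ^ (2 * S.card + 2 * InfinitePlace.nrComplexPlaces K))
    (hkey : ∀ y ∈ KS K (uni K S W), (∀ v ∈ S, y ∈ D.pow v) → ∃ z : Kˣ, z ^ p = y) :
    (img K D.pow S (KS K (uni K S W))).index = p := by
  set Γ : Subgroup Kˣ := KS K (uni K S W) with hΓ
  set f : Γ →* Tgt K D.pow S := (diag K D.pow S).comp Γ.subtype with hf
  have hker : f.ker = (powMonoidHom p : Γ →* Γ).range := by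
    ext x
    constructor
    · intro hx
      have hx' : (x : Kˣ) ∈ (diag K D.pow S).ker := hx
      rw [mem_ker_diag_iff] at hx'
      obtain ⟨z, hz⟩ := hkey x x.2 hx'
      have hzΓ : z ∈ Γ := mem_KS_of_pow_mem hp.ne_zero (hz ▸ x.2)
      exact ⟨⟨z, hzΓ⟩, Subtype.ext hz⟩
    · rintro ⟨z, rfl⟩
      have : ((powMonoidHom p z : Γ) : Kˣ) ∈ (diag K D.pow S).ker := by
        rw [mem_ker_diag_iff]
        intro v _
        exact D.pow_mem v z
      exact this
  have hrange : Nat.card (f.range : Subgroup (Tgt K D.pow S)) = p ^ (S.card + W.card + InfinitePlace.nrComplexPlaces K) := by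
    rw [← Subgroup.index_ker, hker, hU (uni K S W), card_uni hSW]
  have hmul := Subgroup.index_mul_card (G := Tgt K D.pow S) f.range
  rw [hrange, hT] at hmul
  rw [img_eq_range]
  have hexp : 2 * S.card + 2 * InfinitePlace.nrComplexPlaces K =
      1 + (S.card + W.card + InfinitePlace.nrComplexPlaces K) := by omega
  rw [hexp, pow_add p 1, pow_one] at hmul
  exact Nat.eq_of_mul_eq_mul_right (pow_pos hp.pos _) hmul

/-- `main` with the instances of the nodes SI-A, SI-B, SI-G, SI-H, SI-I which are used taken as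
hypotheses. -/
theorem main_of_nodes (hp : p.Prime) (D : LocData p K) (hU : SUnitIndex p K)
    (S : Finset (Pl K)) (a : Kˣ)
    (hA : Nat.card (Tgt K D.pow S) = p ^ (2 * S.card + Module.finrank ℚ K))
    (hB : Module.finrank ℚ K = 2 * InfinitePlace.nrComplexPlaces K)
    (hG : ∃ W : Finset (Pl K), Disjoint S W ∧ (∀ w ∈ W, a ∈ D.pow w) ∧
      W.card + 1 = S.card + InfinitePlace.nrComplexPlaces K ∧
      ∀ u ∈ KS K S, (∀ w ∈ W, u ∈ D.pow w) → u ∈ lineSub p K S a)
    (hH : ∀ W : Finset (Pl K), Disjoint S W →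
      W.card + 1 = S.card + InfinitePlace.nrComplexPlaces K →
      (∀ u ∈ KS K S, (∀ w ∈ W, u ∈ D.pow w) → u ∈ lineSub p K S a) →
      img K D.pow W (KS K (uni K S W)) = ⊤)
    (hI : ∀ W : Finset (Pl K), img K D.pow W (KS K (uni K S W)) = ⊤ →
      ∀ y : Kˣ, y ∈ KS K (uni K S W) → (∀ v ∈ S, y ∈ D.pow v) → ∃ z : Kˣ, z ^ p = y) :
    ∃ W : Finset (Pl K), Disjoint S W ∧ (∀ w ∈ W, a ∈ D.pow w) ∧
      (img K D.pow S (KS K (uni K S W))).index = p := by
  obtain ⟨W, hSW, haW, hcard, hW⟩ := hG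
  refine ⟨W, hSW, haW, main_core hp D hU S W hSW hcard (by rw [hA, hB]) ?_⟩
  exact hI W (hH W hSW hcard hW)

end Fermat.Agent.S55.NIT.SI
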