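/-
S55 / NIT / SI, node SI-F0: `[U_w : U_w ∩ pow w] = p` for a place `w` not over `p`.
-/
import Fermat.Agent.S55.NIT.SI.Defs

set_option autoImplicit false

namespace Fermat.Agent.S55.NIT.SI

open IsDedekindDomain NumberField

universe u

variable {p : ℕ} {K : Type u} [Field K] [NumberField K]

noncomputable section

/-- The valuation at `w` as a homomorphism `Kˣ → ℤ` (multiplicative notation). -/
def valHomZ (w : Pl K) : Kˣ →* Multiplicative ℤ :=
  (WithZero.unitsWithZeroEquiv (α := Multiplicative ℤ)).toMonoidHom.comp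
    (Units.map (w.valuation K).toMonoidWithZeroHom.toMonoidHom)

theorem coe_valHomZ (w : Pl K) (x : Kˣ) :
    ((valHomZ w x : Multiplicative ℤ) : WithZero (Multiplicative ℤ)) = w.valuation K (x : K) := by
  simp only [valHomZ, MonoidHom.comp_apply, MulEquiv.coe_toMonoidHom,
    WithZero.coe_unitsWithZeroEquiv_eq_units_val]
  rfl

/-- The valuation at `w` modulo `p`. -/
def valHomModP (p : ℕ) (w : Pl K) : Kˣ →* Multiplicative (ZMod p) :=
  (AddMonoidHom.toMultiplicative (Int.castAddHom (ZMod p))).comp (valHomZ w)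

theorem valHomModP_apply (w : Pl K) (x : Kˣ) :
    valHomModP p w x = Multiplicative.ofAdd (((valHomZ w x).toAdd : ℤ) : ZMod p) := rfl

theorem exists_unit_uniformizer (w : Pl K) :
    ∃ ϖ : Kˣ, valHomZ w ϖ = Multiplicative.ofAdd (-1 : ℤ) := by
  obtain ⟨π, hπ⟩ := w.valuation_exists_uniformizer K
  have hπ0 : π ≠ 0 := by
    rintro rfl
    rw [map_zero] at hπ
    exact WithZero.exp_ne_zero hπ.symm
  refine ⟨Units.mk0 π hπ0, ?_⟩
  have h := coe_valHomZ w (Units.mk0 π hπ0)
  rw [Units.val_mk0, hπ] at h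
  exact WithZero.coe_injective h

theorem valHomModP_surjective (w : Pl K) : Function.Surjective (valHomModP p w) := by
  obtain ⟨ϖ, hϖ⟩ := exists_unit_uniformizer w
  intro y
  obtain ⟨n, hn⟩ := ZMod.intCast_surjective y.toAdd
  refine ⟨ϖ ^ (-n), ?_⟩
  rw [valHomModP_apply, map_zpow, hϖ]
  simp [hn]

theorem mem_Uv_iff_valHomZ (w : Pl K) (x : Kˣ) : x ∈ Uv K w ↔ valHomZ w x = 1 := by
  rw [mem_Uv, ← coe_valHomZ, ← WithZero.coe_one, WithZero.coe_inj]

theorem ker_valHomModP (D : LocData p K) (w : Pl K) :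
    (valHomModP p w).ker = D.pow w ⊔ Uv K w := by
  apply le_antisymm
  · intro x hx
    rw [MonoidHom.mem_ker, valHomModP_apply] at hx
    have hx' : (((valHomZ w x).toAdd : ℤ) : ZMod p) = 0 := by
      simpa using hx
    rw [ZMod.intCast_zmod_eq_zero_iff_dvd] at hx'
    obtain ⟨k, hk⟩ := hx'
    obtain ⟨ϖ, hϖ⟩ := exists_unit_uniformizer w
    have hu : x * ((ϖ ^ (-k)) ^ p)⁻¹ ∈ Uv K w := by
      rw [mem_Uv_iff_valHomZ, map_mul, map_inv, map_pow, map_zpow, hϖ]
      apply Multiplicative.toAdd.injective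
      simp [hk]
    have hxe : x = (ϖ ^ (-k)) ^ p * (x * ((ϖ ^ (-k)) ^ p)⁻¹) := by
      rw [mul_comm x, mul_inv_cancel_left]
    rw [hxe]
    exact Subgroup.mul_mem_sup (D.pow_mem w _) hu
  · rw [sup_le_iff]
    constructor
    · intro x hx
      obtain ⟨y, hy⟩ := D.val_of_mem_pow w x hx
      rw [← coe_valHomZ, ← coe_valHomZ, ← WithZero.coe_pow, WithZero.coe_inj] at hy
      rw [MonoidHom.mem_ker, valHomModP_apply, hy]
      simp
    · intro x hx
      rw [mem_Uv_iff_valHomZ] at hx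
      rw [MonoidHom.mem_ker, valHomModP_apply, hx]
      simp

theorem index_pow_sup_Uv (hp : p.Prime) (D : LocData p K) (w : Pl K) :
    (D.pow w ⊔ Uv K w).index = p := by
  have : NeZero p := ⟨hp.ne_zero⟩
  rw [← ker_valHomModP D w, Subgroup.index_ker,
    MonoidHom.range_eq_top.mpr (valHomModP_surjective w), Nat.card_congr Subgroup.topEquiv.toEquiv,
    Nat.card_congr Multiplicative.toAdd, Nat.card_zmod]

theorem maxPowDividing_eq_one_of_not_over_tame (hp : p.Prime) (w : Pl K) (hw : ¬ Over p K w) :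
    w.maxPowDividing (Ideal.span {(p : 𝓞 K)}) = 1 := by
  have hp0 : Ideal.span {(p : 𝓞 K)} ≠ 0 := by
    rw [Ne, Ideal.zero_eq_bot, Ideal.span_singleton_eq_bot]
    exact_mod_cast hp.ne_zero
  have hc : (Associates.mk w.asIdeal).count (Associates.mk (Ideal.span {(p : 𝓞 K)})).factors = 0 := by
    by_contra hne
    have hne' := (Associates.count_ne_zero_iff_dvd hp0 w.irreducible).mp hne
    rw [Ideal.dvd_span_singleton] at hne'
    exact hw hne'
  rw [HeightOneSpectrum.maxPowDividing, hc, pow_zero]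

theorem index_pow_of_not_over (hp : p.Prime) (D : LocData p K) (w : Pl K) (hw : ¬ Over p K w) :
    (D.pow w).index = p ^ 2 := by
  rw [D.index_pow w, maxPowDividing_eq_one_of_not_over_tame hp w hw, Ideal.one_eq_top,
    Ideal.absNorm_top, mul_one]

/-- SI-F0 (file TameIndex.lean). `[U_w : U_w ∩ pow w] = p` for `w ∤ p`. -/
theorem relIndex_pow_Uv (hp : p.Prime) (D : LocData p K) (w : Pl K) (hw : ¬ Over p K w) :
    (D.pow w).relIndex (Uv K w) = p := by
  have h1 : (D.pow w).relIndex (D.pow w ⊔ Uv K w) * (D.pow w ⊔ Uv K w).index = (D.pow w).index :=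
    Subgroup.relIndex_mul_index le_sup_left
  rw [Subgroup.relIndex_sup_left, index_pow_sup_Uv hp D w, index_pow_of_not_over hp D w hw,
    sq] at h1
  exact Nat.eq_of_mul_eq_mul_right hp.pos h1

end

end Fermat.Agent.S55.NIT.SI
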