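/-
S55 / NIT / SI, node SI-H: `K_{S∪W} → ∏_{w∈W} Kˣ/pow w` is onto.
-/
import Fermat.Agent.S55.NIT.SI.Defs
import Fermat.Agent.S55.NIT.SI.LineIndex
import Fermat.Agent.S55.NIT.SI.TameIndex

set_option autoImplicit false

namespace Fermat.Agent.S55.NIT.SI

open IsDedekindDomain NumberField

universe u

variable {p : ℕ} {K : Type u} [Field K] [NumberField K]

namespace SurjW

/-- families of classes of local units -/
def A0 (D : LocData p K) (W : Finset (Pl K)) : Subgroup (Tgt K D.pow W) :=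
  Subgroup.pi Set.univ fun w : W => (Uv K w).map (QuotientGroup.mk' (D.pow w))

theorem mem_A0 (D : LocData p K) (W : Finset (Pl K)) (t : Tgt K D.pow W) :
    t ∈ A0 D W ↔ ∀ w : W, t w ∈ (Uv K w).map (QuotientGroup.mk' (D.pow w)) := by
  simp [A0, Subgroup.mem_pi]

theorem card_factor (D : LocData p K) (w : Pl K) :
    Nat.card ((Uv K w).map (QuotientGroup.mk' (D.pow w))) = (D.pow w).relIndex (Uv K w) := by
  rw [← Subgroup.relIndex_ker, QuotientGroup.ker_mk']

theorem card_A0 (D : LocData p K) (W : Finset (Pl K))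
    (hF0 : ∀ w ∈ W, (D.pow w).relIndex (Uv K w) = p) :
    Nat.card (A0 D W) = p ^ W.card := by
  have e : (A0 D W) ≃ ∀ w : W, ((Uv K w).map (QuotientGroup.mk' (D.pow w))) :=
    (Equiv.subtypeEquivRight (fun t => mem_A0 D W t)).trans Equiv.subtypePiEquivPi
  rw [Nat.card_congr e, Nat.card_pi]
  have : ∀ w : W, Nat.card ((Uv K w).map (QuotientGroup.mk' (D.pow w))) = p := fun w => by
    rw [card_factor, hF0 w w.2]
  rw [Finset.prod_congr rfl (fun w _ => this w)]
  simp

theorem ker_diag (H : Pl K → Subgroup Kˣ) (W : Finset (Pl K)) (x : Kˣ) :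
    x ∈ (diag K H W).ker ↔ ∀ w ∈ W, x ∈ H w := by
  rw [MonoidHom.mem_ker]
  constructor
  · intro h w hw
    have := congrFun h ⟨w, hw⟩
    simpa using this
  · intro h
    ext w
    simpa using h w w.2

theorem img_KS_le_A0 (D : LocData p K) (S W : Finset (Pl K)) (hSW : Disjoint S W) :
    img K D.pow W (KS K S) ≤ A0 D W := by
  rintro _ ⟨x, hx, rfl⟩
  rw [mem_A0]
  intro w
  refine ⟨x, ?_, rfl⟩
  exact hx w (fun h => Finset.disjoint_left.mp hSW h w.2)

/-- the image of the `S`-units is the group of all families of classes of units -/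
theorem img_KS_eq_A0 (hp : p.Prime) (D : LocData p K) (S W : Finset (Pl K)) (a : Kˣ)
    (hSW : Disjoint S W) (hcard : W.card + 1 = S.card + InfinitePlace.nrComplexPlaces K)
    (hW : ∀ u ∈ KS K S, (∀ w ∈ W, u ∈ D.pow w) → u ∈ lineSub p K S a)
    (hF0 : ∀ w ∈ W, (D.pow w).relIndex (Uv K w) = p)
    (hE : (lineSub p K S a).relIndex (KS K S) * p =
      p ^ (S.card + InfinitePlace.nrComplexPlaces K)) :
    img K D.pow W (KS K S) = A0 D W := by
  have hc := card_A0 D W hF0
  have hfin : Finite (A0 D W) :=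
    Nat.finite_of_card_ne_zero (by rw [hc]; exact pow_ne_zero _ hp.ne_zero)
  apply Subgroup.eq_of_le_of_card_ge (img_KS_le_A0 D S W hSW)
  rw [hc]
  have h1 : (lineSub p K S a).relIndex (KS K S) = p ^ W.card := by
    rw [← hcard, pow_succ] at hE
    exact Nat.eq_of_mul_eq_mul_right hp.pos hE
  have h2 : (lineSub p K S a).relIndex (KS K S) ∣ Nat.card (img K D.pow W (KS K S)) := by
    rw [img, ← Subgroup.relIndex_ker, ← Subgroup.inf_relIndex_right (diag K D.pow W).ker]
    apply Subgroup.relIndex_dvd_of_le_left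
    intro u hu
    exact hW u hu.2 ((ker_diag D.pow W u).1 hu.1)
  rw [h1] at h2
  have hfin' : Finite (img K D.pow W (KS K S)) :=
    Finite.of_injective (Subgroup.inclusion (img_KS_le_A0 D S W hSW))
      (Subgroup.inclusion_injective _)
  exact Nat.le_of_dvd Nat.card_pos h2

/-- a global element of `K_{S∪W}` with prescribed valuations on `W` -/
theorem exists_val (S : Finset (Pl K)) (hCl : ClTriv K S) (W : Finset (Pl K))
    (hSW : Disjoint S W) (x : Pl K → Kˣ) :
    ∃ g ∈ KS K (uni K S W), ∀ w ∈ W, w.valuation K (g : K) = w.valuation K (x w : K) := by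
  classical
  have hWS : ∀ w ∈ W, w ∉ S := fun w hw h => Finset.disjoint_left.mp hSW h hw
  choose! ϖ hϖ1 hϖ2 using hCl
  let n : Pl K → ℤ := fun w => WithZero.log (w.valuation K (x w : K))
  have hn : ∀ w, w.valuation K (x w : K) = WithZero.exp (n w) := fun w =>
    (WithZero.exp_log ((Valuation.ne_zero_iff _).2 (x w).ne_zero)).symm
  have key : ∀ (T : Finset (Pl K)), T ⊆ W → ∀ v : Pl K, v ∉ S →
      v.valuation K ((∏ w ∈ T, ϖ w ^ (-n w) : Kˣ) : K) =
        if v ∈ T then WithZero.exp (n v) else 1 := by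
    intro T
    induction T using Finset.induction_on with
    | empty => intro _ v _; simp
    | insert w T hwT ih =>
      intro hT v hv
      have hw : w ∈ W := hT (Finset.mem_insert_self _ _)
      rw [Finset.prod_insert hwT, Units.val_mul, map_mul,
        ih (fun y hy => hT (Finset.mem_insert_of_mem hy)) v hv, Units.val_zpow_eq_zpow_val,
        map_zpow₀]
      by_cases hvw : v = w
      · subst hvw
        rw [hϖ1 v hv, if_neg hwT, if_pos (Finset.mem_insert_self _ _), mul_one,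
          ← WithZero.exp_zsmul]
        simp
      · rw [hϖ2 w (hWS w hw) v hv hvw, one_zpow, one_mul]
        simp [Finset.mem_insert, hvw]
  refine ⟨∏ w ∈ W, ϖ w ^ (-n w), ?_, ?_⟩
  · intro v hv
    have hv' : v ∉ S ∧ v ∉ W := by
      have : v ∉ uni K S W := hv
      rw [mem_uni] at this
      tauto
    rw [key W subset_rfl v hv'.1, if_neg hv'.2]
  · intro w hw
    rw [key W subset_rfl w (hWS w hw), if_pos hw, hn]

theorem KS_le_uni (S W : Finset (Pl K)) : KS K S ≤ KS K (uni K S W) := by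
  intro x hx v hv
  apply hx v
  intro h
  exact hv (mem_uni.2 (Or.inl h))

/-- SI-H with the nodes SI-F0 and SI-E as hypotheses. -/
theorem img_pow_W_eq_top_aux (hp : p.Prime) (D : LocData p K)
    (S : Finset (Pl K)) (hCl : ClTriv K S)
    (a : Kˣ) (W : Finset (Pl K))
    (hSW : Disjoint S W) (hcard : W.card + 1 = S.card + InfinitePlace.nrComplexPlaces K)
    (hW : ∀ u ∈ KS K S, (∀ w ∈ W, u ∈ D.pow w) → u ∈ lineSub p K S a)
    (hF0 : ∀ w ∈ W, (D.pow w).relIndex (Uv K w) = p)
    (hE : (lineSub p K S a).relIndex (KS K S) * p =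
      p ^ (S.card + InfinitePlace.nrComplexPlaces K)) :
    img K D.pow W (KS K (uni K S W)) = ⊤ := by
  classical
  rw [eq_top_iff]
  intro t _
  -- representatives
  have hrep : ∀ w : W, ∃ y : Kˣ, QuotientGroup.mk' (D.pow w) y = t w := fun w =>
    QuotientGroup.mk'_surjective _ (t w)
  choose y hy using hrep
  let x : Pl K → Kˣ := fun w => if h : w ∈ W then y ⟨w, h⟩ else 1
  have hx : ∀ w : W, x w = y w := fun w => by simp [x, w.2]
  obtain ⟨g, hg, hgv⟩ := exists_val S hCl W hSW x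
  have hmem : t * (diag K D.pow W g)⁻¹ ∈ A0 D W := by
    rw [mem_A0]
    intro w
    refine ⟨y w * g⁻¹, ?_, ?_⟩
    · show (w : Pl K).valuation K ((y w * g⁻¹ : Kˣ) : K) = 1
      rw [Units.val_mul, map_mul, Units.val_inv_eq_inv_val, map_inv₀, hgv w w.2, hx w]
      exact mul_inv_cancel₀ ((Valuation.ne_zero_iff _).2 (y w).ne_zero)
    · rw [map_mul, hy w, map_inv]
      rfl
  rw [← img_KS_eq_A0 hp D S W a hSW hcard hW hF0 hE] at hmem
  obtain ⟨s, hs, hst⟩ := hmem
  refine ⟨s * g, mul_mem (KS_le_uni S W hs) hg, ?_⟩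
  rw [map_mul, hst]
  exact inv_mul_cancel_right t (diag K D.pow W g)

end SurjW

/-- SI-H (file SurjW.lean). `K_{S∪W} → ∏_{w∈W} Kˣ/pow w` is onto. -/
theorem img_pow_W_eq_top (hp : p.Prime) (D : LocData p K) (hU : SUnitIndex p K)
    (S : Finset (Pl K)) (hpS : ∀ v : Pl K, Over p K v → v ∈ S) (hCl : ClTriv K S)
    (a : Kˣ) (haS : a ∈ KS K S) (ha : ∀ z : Kˣ, z ^ p ≠ a) (W : Finset (Pl K))
    (hSW : Disjoint S W) (hcard : W.card + 1 = S.card + InfinitePlace.nrComplexPlaces K)
    (hW : ∀ u ∈ KS K S, (∀ w ∈ W, u ∈ D.pow w) → u ∈ lineSub p K S a) :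
    img K D.pow W (KS K (uni K S W)) = ⊤ :=
  SurjW.img_pow_W_eq_top_aux hp D S hCl a W hSW hcard hW
    (fun w hw => relIndex_pow_Uv hp D w
      (fun h => Finset.disjoint_left.mp hSW (hpS w h) hw))
    (relIndex_lineSub hp hU S a haS ha)

end Fermat.Agent.S55.NIT.SI
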