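/-
S55 / NIT / SI, nodes SI-G (verbatim) and SI-J: assembly of the second inequality.
-/
import Fermat.Agent.S55.NIT.SI.AbstractInf
import Fermat.Agent.S55.NIT.SI.AuxPrimes
import Fermat.Agent.S55.NIT.SI.CardTgt
import Fermat.Agent.S55.NIT.SI.Key
import Fermat.Agent.S55.NIT.SI.LineIndex
import Fermat.Agent.S55.NIT.SI.MainCore
import Fermat.Agent.S55.NIT.SI.Sep
import Fermat.Agent.S55.NIT.SI.SurjW
import Fermat.Agent.S55.NIT.SI.TameIndex
import Fermat.Agent.S55.NIT.SI.TotallyComplex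

set_option autoImplicit false

namespace Fermat.Agent.S55.NIT.SI

open IsDedekindDomain NumberField

universe u

variable {p : ℕ} {K : Type u} [Field K] [NumberField K]

/-- SI-G. The auxiliary primes. -/
theorem exists_aux (hp : p.Prime) {ζ : K} (hζ : IsPrimitiveRoot ζ p) (D : LocData p K)
    (hU : SUnitIndex p K) (S : Finset (Pl K)) (hpS : ∀ v : Pl K, Over p K v → v ∈ S)
    (a : Kˣ) (haS : a ∈ KS K S) (ha : ∀ z : Kˣ, z ^ p ≠ a) :
    ∃ W : Finset (Pl K), Disjoint S W ∧ (∀ w ∈ W, a ∈ D.pow w) ∧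
      W.card + 1 = S.card + InfinitePlace.nrComplexPlaces K ∧
      ∀ u ∈ KS K S, (∀ w ∈ W, u ∈ D.pow w) → u ∈ lineSub p K S a :=
  exists_aux_of hp D S hpS a haS
    (fun B m hB H hBH hH hsep => exists_finset_iInf_eq hp B m hB H hBH hH hsep)
    (relIndex_lineSub hp hU S a haS ha)
    (fun w hw => relIndex_pow_Uv hp D w hw)
    (fun u hu => exists_place_sep hp hζ S a u hu)

/-- SI-J = SI-main. -/
theorem main (hp : p.Prime) (hp2 : p ≠ 2) {ζ : K} (hζ : IsPrimitiveRoot ζ p) (D : LocData p K)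
    (hFI : FirstIneq p K D) (hU : SUnitIndex p K)
    (S : Finset (Pl K)) (hpS : ∀ v : Pl K, Over p K v → v ∈ S) (hCl : ClTriv K S)
    (a : Kˣ) (haS : a ∈ KS K S) (ha : ∀ z : Kˣ, z ^ p ≠ a) :
    ∃ W : Finset (Pl K), Disjoint S W ∧ (∀ w ∈ W, a ∈ D.pow w) ∧
      (img K D.pow S (KS K (uni K S W))).index = p :=
  main_of_nodes hp D hU S a (card_tgt_pow hp D S hpS) (finrank_eq_two_mul hp hp2 hζ)
    (exists_aux hp hζ D hU S hpS a haS ha)
    (fun W hSW hcard hW => img_pow_W_eq_top hp D hU S hpS hCl a haS ha W hSW hcard hW)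
    (fun W hsurj y hy hyS => key D hFI S hpS hCl W hsurj y hy hyS)

end Fermat.Agent.S55.NIT.SI
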