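/-
S55 / NIT / SI : node SI-L (`cut_down`).  Every finitely supported family can be moved into `S`
by a global element.
-/
import Fermat.Agent.S55.NIT.SI.Defs

set_option autoImplicit false

namespace Fermat.Agent.S55.NIT.SI

open IsDedekindDomain NumberField

universe u

variable {p : ℕ} {K : Type u} [Field K] [NumberField K]

/-- Elements of `K_S` are units at the places outside `S`. -/
theorem mem_Uv_of_mem_KS {S : Finset (Pl K)} {a : Kˣ} (haS : a ∈ KS K S) {v : Pl K}
    (hv : v ∉ S) : a ∈ Uv K v :=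
  haS v (by simpa using hv)

/-- Units at a place outside `S ⊇ {v ∣ p}` are local norms from `K(a^(1/p))`, `a ∈ K_S`. -/
theorem Uv_le_nrm_of_notMem (D : LocData p K) {S : Finset (Pl K)}
    (hpS : ∀ v : Pl K, Over p K v → v ∈ S) {a : Kˣ} (haS : a ∈ KS K S) {v : Pl K} (hv : v ∉ S) :
    Uv K v ≤ D.nrm a v :=
  D.unit_le_nrm a v (fun h => hv (hpS v h)) (mem_Uv_of_mem_KS haS hv)

/-- A global element with prescribed valuations at finitely many places outside `S`, and which is
a unit at all the other places outside `S`. -/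
theorem exists_valuation_eq (S : Finset (Pl K)) (hCl : ClTriv K S) (T : Finset (Pl K))
    (k : Pl K → ℤ) :
    ∃ g : Kˣ, (∀ v ∈ T, v ∉ S → v.valuation K (g : K) = WithZero.exp (k v)) ∧
      ∀ v : Pl K, v ∉ T → v ∉ S → v.valuation K (g : K) = 1 := by
  classical
  induction T using Finset.induction_on with
  | empty => exact ⟨1, by simp, by simp⟩
  | insert w T hw ih =>
    obtain ⟨g, hg1, hg2⟩ := ih
    by_cases hwS : w ∈ S
    · refine ⟨g, ?_, ?_⟩
      · intro v hv hvS
        rcases Finset.mem_insert.1 hv with rfl | hv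
        · exact absurd hwS hvS
        · exact hg1 v hv hvS
      · intro v hv hvS
        exact hg2 v (fun h => hv (Finset.mem_insert_of_mem h)) hvS
    · obtain ⟨ϖ, hϖ1, hϖ2⟩ := hCl w hwS
      refine ⟨g * ϖ ^ (- k w), ?_, ?_⟩
      · intro v hv hvS
        rcases Finset.mem_insert.1 hv with rfl | hv
        · rw [Units.val_mul, map_mul, hg2 v hw hvS, one_mul, Units.val_zpow_eq_zpow_val, map_zpow₀,
            hϖ1, ← WithZero.exp_zsmul]
          simp
        · have hne : v ≠ w := fun h => hw (h ▸ hv)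
          rw [Units.val_mul, map_mul, hg1 v hv hvS, Units.val_zpow_eq_zpow_val, map_zpow₀,
            hϖ2 v hvS hne, one_zpow, mul_one]
      · intro v hv hvS
        have hne : v ≠ w := fun h => hv (h ▸ Finset.mem_insert_self _ _)
        rw [Units.val_mul, map_mul, hg2 v (fun h => hv (Finset.mem_insert_of_mem h)) hvS, one_mul,
          Units.val_zpow_eq_zpow_val, map_zpow₀, hϖ2 v hvS hne, one_zpow]

/-- SI-L. Every finitely supported family can be moved into `S` by a global element. -/
theorem cut_down (D : LocData p K) (S : Finset (Pl K)) (hpS : ∀ v : Pl K, Over p K v → v ∈ S)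
    (hCl : ClTriv K S) (a : Kˣ) (haS : a ∈ KS K S) (T : Finset (Pl K)) (x : Pl K → Kˣ) :
    ∃ g : Kˣ, (∀ v ∈ T, v ∉ S → x v * g ∈ D.nrm a v) ∧
      ∀ v : Pl K, v ∉ T → v ∉ S → g ∈ D.nrm a v := by
  obtain ⟨g, hg1, hg2⟩ := exists_valuation_eq S hCl T
    (fun v => - WithZero.log (v.valuation K (x v : K)))
  refine ⟨g, ?_, ?_⟩
  · intro v hv hvS
    apply Uv_le_nrm_of_notMem D hpS haS hvS
    rw [mem_Uv, Units.val_mul, map_mul, hg1 v hv hvS, WithZero.exp_neg, WithZero.exp_log]
    · exact mul_inv_cancel₀ (by simp)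
    · simp
  · intro v hv hvS
    exact Uv_le_nrm_of_notMem D hpS haS hvS (hg2 v hv hvS)

end Fermat.Agent.S55.NIT.SI
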