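/-
S55 / NIT / SI : node SI-K, the part which does not depend on SI-J (`main`).
-/
import Fermat.Agent.S55.NIT.SI.CutDown

set_option autoImplicit false

namespace Fermat.Agent.S55.NIT.SI

open IsDedekindDomain NumberField

universe u

variable {p : ℕ} {K : Type u} [Field K] [NumberField K]

/-- The natural map `∏_{v ∈ S} Kˣ / H v → ∏_{v ∈ S} Kˣ / H' v` for `H ≤ H'`. -/
noncomputable def tgtMap {H H' : Pl K → Subgroup Kˣ} (h : ∀ v, H v ≤ H' v) (S : Finset (Pl K)) :
    Tgt K H S →* Tgt K H' S :=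
  MonoidHom.pi fun v : S =>
    (QuotientGroup.map (H v) (H' v) (MonoidHom.id Kˣ) (h v)).comp (Pi.evalMonoidHom _ v)

theorem tgtMap_apply {H H' : Pl K → Subgroup Kˣ} (h : ∀ v, H v ≤ H' v) (S : Finset (Pl K))
    (y : Tgt K H S) (v : S) :
    tgtMap h S y v = QuotientGroup.map (H v) (H' v) (MonoidHom.id Kˣ) (h v) (y v) := rfl

theorem tgtMap_surjective {H H' : Pl K → Subgroup Kˣ} (h : ∀ v, H v ≤ H' v)
    (S : Finset (Pl K)) : Function.Surjective (tgtMap h S) := by
  intro y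
  choose z hz using fun v : S => QuotientGroup.mk'_surjective (H' v) (y v)
  refine ⟨fun v => QuotientGroup.mk' (H v) (z v), ?_⟩
  ext v
  rw [tgtMap_apply]
  exact hz v

theorem tgtMap_comp_diag {H H' : Pl K → Subgroup Kˣ} (h : ∀ v, H v ≤ H' v)
    (S : Finset (Pl K)) : (tgtMap h S).comp (diag K H S) = diag K H' S := by
  ext x v
  rw [MonoidHom.comp_apply, tgtMap_apply]
  rfl

theorem map_tgtMap_img {H H' : Pl K → Subgroup Kˣ} (h : ∀ v, H v ≤ H' v)
    (S : Finset (Pl K)) (Γ : Subgroup Kˣ) :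
    (img K H S Γ).map (tgtMap h S) = img K H' S Γ := by
  rw [img, img, Subgroup.map_map, tgtMap_comp_diag]

theorem img_mono (H : Pl K → Subgroup Kˣ) (S : Finset (Pl K)) {Γ Γ' : Subgroup Kˣ}
    (h : Γ ≤ Γ') : img K H S Γ ≤ img K H S Γ' :=
  Subgroup.map_mono h

/-- `S ∪ W`-units are local norms outside `S` when `a` is a local `p`-th power on `W`. -/
theorem KS_uni_le_GamS (D : LocData p K) (S : Finset (Pl K))
    (hpS : ∀ v : Pl K, Over p K v → v ∈ S) (a : Kˣ) (haS : a ∈ KS K S) (W : Finset (Pl K))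
    (hW : ∀ w ∈ W, a ∈ D.pow w) : KS K (uni K S W) ≤ GamS p K D a S := by
  intro x hx
  rw [GamS, Subgroup.mem_iInf]
  rintro ⟨v, hv⟩
  by_cases hvW : v ∈ W
  · change x ∈ D.nrm a v
    rw [D.nrm_eq_top a v (hW v hvW)]
    exact Subgroup.mem_top x
  · apply Uv_le_nrm_of_notMem D hpS haS hv
    apply mem_Uv_of_mem_KS hx
    rw [mem_uni]
    tauto

/-- SI-K from the conclusion of SI-J. -/
theorem index_img_nrm_dvd_of_main (D : LocData p K) (S : Finset (Pl K))
    (hpS : ∀ v : Pl K, Over p K v → v ∈ S) (a : Kˣ) (haS : a ∈ KS K S)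
    (hmain : ∃ W : Finset (Pl K), Disjoint S W ∧ (∀ w ∈ W, a ∈ D.pow w) ∧
      (img K D.pow S (KS K (uni K S W))).index = p) :
    (img K (D.nrm a) S (GamS p K D a S)).index ∣ p := by
  obtain ⟨W, -, hW, hidx⟩ := hmain
  have h1 : (img K (D.nrm a) S (KS K (uni K S W))).index ∣ p := by
    rw [← map_tgtMap_img (D.pow_le_nrm a) S]
    exact (Subgroup.index_map_dvd _ (tgtMap_surjective _ S)).trans hidx.dvd
  exact (Subgroup.index_dvd_of_le (img_mono _ S (KS_uni_le_GamS D S hpS a haS W hW))).trans h1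

end Fermat.Agent.S55.NIT.SI
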