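/-
S55 / NIT / SI, node SI-K: the second inequality cut down to `S`.
-/
import Fermat.Agent.S55.NIT.SI.Main
import Fermat.Agent.S55.NIT.SI.MainNrmAux

set_option autoImplicit false

namespace Fermat.Agent.S55.NIT.SI

open IsDedekindDomain NumberField

universe u

variable {p : ℕ} {K : Type u} [Field K] [NumberField K]

/-- SI-K. The second inequality cut down to `S`. -/
theorem index_img_nrm_dvd (hp : p.Prime) (hp2 : p ≠ 2) {ζ : K} (hζ : IsPrimitiveRoot ζ p)
    (D : LocData p K) (hFI : FirstIneq p K D) (hU : SUnitIndex p K)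
    (S : Finset (Pl K)) (hpS : ∀ v : Pl K, Over p K v → v ∈ S) (hCl : ClTriv K S)
    (a : Kˣ) (haS : a ∈ KS K S) (ha : ∀ z : Kˣ, z ^ p ≠ a) :
    (img K (D.nrm a) S (GamS p K D a S)).index ∣ p :=
  index_img_nrm_dvd_of_main D S hpS a haS (main hp hp2 hζ D hFI hU S hpS hCl a haS ha)

end Fermat.Agent.S55.NIT.SI
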